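import Mathlib
import Fermat.Prelude.Def_ModularCurve_ReductionModL
import Fermat.Prelude.Def_ModularCurve_HeckeModule
import Fermat.Prelude.Def_CuspForm_HeckeAlgebra
import Fermat.Prelude.Def_FLTPrelim_Modularity
import Fermat.Agent.MUL.Orig.F3.Interfaces
import Fermat.Agent.MUL.S27.Zeta.Defs
import Fermat.Agent.MUL.Lib.MultRed.E0Val

section MergeWrap_R38_Ret_Defs -- from R38/Ret/Defs.lean

/-!
# Row 38 (target S44), block R = (RET) "return to level `M`": interface propositions

Sub-architect: helper44 (architect of the wave: helper81, `NOTES/blueprint-row38.md`).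
This file contains ONLY definitions (no theorems, no proofs).  DO NOT EDIT the statements once
work has started; ask helper44 on the board.

Notation: `M` the level prime to `p` (`M = N / p`), `A` a place of `ℚ̄` over `p`,
`J = JZero M = Pic⁰ (ℚ̄(X₀(M)))`, `red = reductionModL A M : J →+ JZeroC k M` (`k` the residue field
of `A`), `T_ℓ = heckeOperatorBar M ℓ`.  Everything is stated on the characteristic-zero side: no
Hecke operator in characteristic `p` is ever defined (the kernel of `red` is Hecke-stable).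

ROUTE: rigidity by division (helper79, helper32, helper50): a polynomial in the `T_ℓ` which
vanishes on `S₂(Γ₀(M))` kills the torsion of `J` (R-C); then `red (φ x) = 0` for EVERY `x`, because
`φ x = m • w` with `w` fixed by an open subgroup `U ∋ s`, and `red w` is fixed by a Frobenius
structure, whose fixed points form a FINITE group (S27, part D).
-/

set_option autoImplicit false

noncomputable section

namespace Fermat.Agent.R38Ret

open ModularCurve AlgebraicCurve Fermat.Agent.F3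

local notation "Qb" => AlgebraicClosure ℚ

/-! ### Input and output of block R -/

/-- **INPUT of block R** (delivered by the bridge R-6): a class `x` of level `M` whose reduction at
`A` is a nonzero class killed by `p`, and an eigen-class modulo the kernel of reduction for the
`T_ℓ`, `ℓ ∉ S`, with eigenvalues `a ℓ`. -/
def RetInput (p M : ℕ) [NeZero M] (S : Finset ℕ) (A : ValuationSubring Qb) (a : ℕ → ℤ) : Prop :=
  ∃ x : JZero M, reductionModL A M x ≠ 0 ∧ p • reductionModL A M x = 0 ∧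
    ∀ ℓ : Nat.Primes, (ℓ : ℕ) ∉ S →
      reductionModL A M (heckeOperatorBar M ℓ x - a ℓ • x) = 0

/-- **OUTPUT of block R**: a normalised eigenform of level `M` with `a_ℓ(g) ≡ a ℓ` modulo a
maximal ideal over `p`, for all primes `ℓ ∉ S`, `ℓ ∤ M`. -/
def RetOutput (p M : ℕ) (S : Finset ℕ) (a : ℕ → ℤ) : Prop :=
  ∃ (g : CuspForm (CongruenceSubgroup.Gamma0 M) 2) (𝔪 : Ideal (integralClosure ℤ ℂ)),
    g.IsNormalizedEigenform ∧ 𝔪.IsMaximal ∧ (p : integralClosure ℤ ℂ) ∈ 𝔪 ∧
    ∀ ℓ : ℕ, ℓ.Prime → ℓ ∉ S → ¬ ℓ ∣ M →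
      ∃ α : integralClosure ℤ ℂ, (α : ℂ) = ModularFormClass.qCoeff g ℓ ∧
        α - ((a ℓ : ℤ) : integralClosure ℤ ℂ) ∈ 𝔪

/-- **(RET)**, the deliverable of block R. -/
def RetStatement (p M : ℕ) [NeZero M] (S : Finset ℕ) : Prop :=
  ∀ A : ValuationSubring Qb, A.LiesOverPrime p → ∀ a : ℕ → ℤ,
    RetInput p M S A a → RetOutput p M S a

/-! ### The leaves -/

/-- **(R-C)** the Hecke algebra of `S₂(Γ₀(M))` (away from `S`) acts on the `n`-torsion of
`J₀(M)(ℚ̄)`, `T_ℓ` acting as `heckeOperatorBar M ℓ`. -/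
def HeckeActsOnTors (M : ℕ) [NeZero M] (S : Finset ℕ) : Prop :=
  ∀ n : ℕ, 0 < n →
    ∃ ρ : CuspForm.heckeAlgebra M 2 (↑S : Set ℕ) →+* Module.End ℤ (Jtors M n),
      ∀ (ℓ : ℕ) (hℓ : ℓ.Prime) (hℓM : ¬ ℓ ∣ M) (hℓS : ℓ ∉ (↑S : Set ℕ)),
        ρ (CuspForm.heckeAlgebra.T hℓ hℓM hℓS) = heckeTors M n ⟨ℓ, hℓ⟩

/-- **(R-STAB)** every point of `J₀(M)(ℚ̄)` is fixed by an open subgroup of `G_ℚ`. -/
def JZeroOpenStab (M : ℕ) [NeZero M] : Prop :=
  ∀ x : JZero M, ∃ L : IntermediateField ℚ Qb, FiniteDimensional ℚ L ∧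
    ∀ σ : GQ, (∀ y ∈ L, σ y = y) → σ • x = x

/-- **(R-FROB)** for every number field `L` there are an element `s` of `G_L` and a Frobenius
structure `Φ` on the function field of the reduction of `X₀(M)` at `A` such that the reduction
map intertwines `s` and `Φ`. -/
def RedFrobCompat (p M : ℕ) [NeZero M] : Prop :=
  ∀ A : ValuationSubring Qb, A.LiesOverPrime p →
    ∀ L : IntermediateField ℚ Qb, FiniteDimensional ℚ L →
      ∃ (Φ : Fermat.Agent.S27.FrobStr (IsLocalRing.ResidueField A)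
          (modularFunctionFieldFullC (IsLocalRing.ResidueField A) M)) (s : GQ),
        (∀ y ∈ L, s y = y) ∧
        ∀ w : JZero M, reductionModL A M (s • w) = Φ.sigmaEnd (reductionModL A M w)

/-- **(R-A2)** (from R-STAB, R-FROB and `S27.finite_fixedPow`): the reduction of the points fixed
by a suitable subgroup fixing `x` has finite exponent. -/
def RedFiniteExp (p M : ℕ) [NeZero M] : Prop :=
  ∀ A : ValuationSubring Qb, A.LiesOverPrime p → ∀ x : JZero M,
    ∃ (U : Subgroup GQ) (m : ℕ), m ≠ 0 ∧ (∀ s ∈ U, s • x = x) ∧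
      ∀ w : JZero M, (∀ s ∈ U, s • w = w) → m • reductionModL A M w = 0

/-- **(RIG)** rigidity: an element of the ring generated by the `T_ℓ` on `J₀(M)(ℚ̄)` which kills
the torsion is `0` after reduction. -/
def RigStatement (p M : ℕ) [NeZero M] : Prop :=
  ∀ A : ValuationSubring Qb, A.LiesOverPrime p →
    ∀ φ ∈ Algebra.adjoin ℤ (Set.range (heckeOperatorBar M)),
      (∀ (n : ℕ) (x : JZero M), 0 < n → n • x = 0 → φ x = 0) →
      ∀ x : JZero M, reductionModL A M (φ x) = 0

/-- the ideal of the Hecke algebra generated by `p` and the `T_ℓ - a ℓ`, `ℓ ∉ S`, `ℓ ∤ M`. -/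
def eigenIdealModP (p M : ℕ) [NeZero M] (S : Finset ℕ) (a : ℕ → ℤ) :
    Ideal (CuspForm.heckeAlgebra M 2 (↑S : Set ℕ)) :=
  Ideal.span ({(p : CuspForm.heckeAlgebra M 2 (↑S : Set ℕ))} ∪
    {t | ∃ (ℓ : ℕ) (hℓ : ℓ.Prime) (hℓM : ¬ ℓ ∣ M) (hℓS : ℓ ∉ (↑S : Set ℕ)),
      t = CuspForm.heckeAlgebra.T hℓ hℓM hℓS - (a ℓ : CuspForm.heckeAlgebra M 2 (↑S : Set ℕ))})

/-- **(R-CHI)** going-up: a proper eigen-ideal modulo `p` of the Hecke algebra of level `M` is
realised by a normalised eigenform of level `M`. -/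
def GoingUp (p M : ℕ) [NeZero M] (S : Finset ℕ) : Prop :=
  ∀ a : ℕ → ℤ, eigenIdealModP p M S a ≠ ⊤ → RetOutput p M S a

end Fermat.Agent.R38Ret
end
end MergeWrap_R38_Ret_Defs
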