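import Fermat.Agent.MUL.R38.Ret.Defs
import Fermat.Agent.MUL.R38.Ret.ChiCore
import Fermat.Agent.MUL.S27.Zeta.Main
import Fermat.Agent.MUL.Lib.GaussInt.ModularInst
import Fermat.Agent.MUL.E.Desc.W.Final
import Fermat.Agent.MUL.Lib.Div.Inst
import Fermat.Agent.MUL.F3.EigenPadic.Closed
import Fermat.Agent.MUL.Orig.F3.Galois.HeckeComm
import Fermat.Agent.MUL.E.S15.HeckeRed
import Fermat.Agent.MUL.S17.W.OpenStab
import Fermat.Agent.MUL.Lib.FFL.Red

section MergeWrap_R38_Ret_Chi -- from R38/Ret/Chi.lean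

set_option autoImplicit false

namespace Fermat.Agent.R38Ret

/-- **(R-CHI)** going-up. -/
theorem goingUp (p M : ℕ) [NeZero M] (S : Finset ℕ) : GoingUp p M S := by
  intro a ha
  obtain ⟨g, 𝔪, hg, h𝔪, hp, hℓ⟩ := chi_goingUp (N := M) (↑S : Set ℕ) p a ha
  exact ⟨g, 𝔪, hg, h𝔪, hp, fun ℓ hℓp hℓS hℓM => hℓ ℓ hℓp hℓM (by simpa using hℓS)⟩

end Fermat.Agent.R38Ret
end MergeWrap_R38_Ret_Chi

section MergeWrap_R38_Ret_FinExp -- from R38/Ret/FinExp.lean

set_option autoImplicit false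

noncomputable section

namespace Fermat.Agent.R38Ret

open ModularCurve AlgebraicCurve Fermat.Agent.F3 Fermat.Agent.S27

local notation "Qb" => AlgebraicClosure ℚ

/-- the subgroup of `G_ℚ` fixing a subfield pointwise. -/
def feFix (L : IntermediateField ℚ Qb) : Subgroup GQ where
  carrier := {s | ∀ y ∈ L, s y = y}
  one_mem' := fun _ _ => rfl
  mul_mem' := by
    intro a b ha hb y hy
    show a (b y) = y
    rw [hb y hy, ha y hy]
  inv_mem' := by
    intro a ha y hy
    have h1 := ha y hy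
    show a⁻¹ y = y
    calc a⁻¹ y = a⁻¹ (a y) := by rw [h1]
      _ = y := by
        show (a⁻¹ * a) y = y
        rw [inv_mul_cancel]
        rfl

theorem mem_feFix {L : IntermediateField ℚ Qb} {s : GQ} : s ∈ feFix L ↔ ∀ y ∈ L, s y = y :=
  Iff.rfl

set_option synthInstance.maxHeartbeats 400000 in
set_option maxHeartbeats 1000000 in
/-- **(R-A2)** -/
theorem redFiniteExp {p M : ℕ} [NeZero M] (hstab : JZeroOpenStab M)
    (hfrob : RedFrobCompat p M) : RedFiniteExp p M := by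
  intro A hA x
  obtain ⟨L, hLfin, hL⟩ := hstab x
  obtain ⟨Φ, s, hsL, hs⟩ := hfrob A hA L hLfin
  have : IsAlgClosed (IsLocalRing.ResidueField A) :=
    Fermat.Agent.FrobTrace.isAlgClosed_residueField A
  have hRR : Fermat.Agent.RR.IsRRField (IsLocalRing.ResidueField A)
      (modularFunctionFieldFullC (IsLocalRing.ResidueField A) M) :=
    Fermat.Agent.RRMod.isRRField_fullC' (IsLocalRing.ResidueField A) M
  have hfin := finite_fixedPow hRR Φ 1 one_pos
  have : Finite (fixedPow Φ.sigmaEnd 1) := hfin.to_subtype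
  refine ⟨feFix L, Nat.card (fixedPow Φ.sigmaEnd 1), Nat.card_pos.ne', fun t ht => hL t ht, ?_⟩
  intro w hw
  have h1 : reductionModL A M w ∈ fixedPow Φ.sigmaEnd 1 := by
    show (Φ.sigmaEnd ^ 1) (reductionModL A M w) = reductionModL A M w
    rw [pow_one, ← hs w, hw s hsL]
  have h2 : Nat.card (fixedPow Φ.sigmaEnd 1) •
      (⟨reductionModL A M w, h1⟩ : fixedPow Φ.sigmaEnd 1) = 0 := card_nsmul_eq_zero'
  have h3 := congrArg (Subtype.val) h2
  rw [AddSubgroup.coe_nsmul, ZeroMemClass.coe_zero] at h3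
  exact h3

end Fermat.Agent.R38Ret
end
end MergeWrap_R38_Ret_FinExp

section MergeWrap_R38_Ret_TorsKill -- from R38/Ret/TorsKill.lean

set_option autoImplicit false

noncomputable section

namespace Fermat.Agent.R38

open ModularCurve ModularCurve.Period CongruenceSubgroup AlgebraicCurve
open Fermat.Agent.F3I2 Fermat.Agent.F3EC Fermat.Agent.EDescW

/-- the primes which do not divide `N`. -/
abbrev GoodPrime (N : ℕ) : Type := {ℓ : Nat.Primes // ¬ (ℓ : ℕ) ∣ N}

variable (N : ℕ) [NeZero N]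

/-- the value of a Hecke word on `HomPar N`. -/
def heckeWordH : FreeAlgebra ℤ (GoodPrime N) →ₐ[ℤ] Module.End ℤ (HomPar N) :=
  FreeAlgebra.lift ℤ (fun ℓ : GoodPrime N => heckeHom N ℓ.1)

/-- the value of a Hecke word on `J₀(N)(ℚ̄)`. -/
def heckeWordJ : FreeAlgebra ℤ (GoodPrime N) →ₐ[ℤ] Module.End ℤ (JZero N) :=
  FreeAlgebra.lift ℤ (fun ℓ : GoodPrime N => heckeOperatorBar N ℓ.1)

@[simp]
theorem heckeWordH_ι (ℓ : GoodPrime N) :
    heckeWordH N (FreeAlgebra.ι ℤ ℓ) = heckeHom N ℓ.1 := by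
  simp [heckeWordH]

@[simp]
theorem heckeWordJ_ι (ℓ : GoodPrime N) :
    heckeWordJ N (FreeAlgebra.ι ℤ ℓ) = heckeOperatorBar N ℓ.1 := by
  simp [heckeWordJ]

variable {N}

/-- `κ_n` as an additive map. -/
def kapHom (n : ℕ) (hn : 0 < n) : HomPar N →+ JZero N where
  toFun := kap N n
  map_zero' := kap_zero hn
  map_add' := kap_add hn

@[simp]
theorem kapHom_apply (n : ℕ) (hn : 0 < n) (c : HomPar N) : kapHom n hn c = kap N n c := rfl

/-- `κ_n` commutes with every Hecke word. -/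
theorem kap_heckeWord {n : ℕ} (hn : 0 < n) (P : FreeAlgebra ℤ (GoodPrime N)) (c : HomPar N) :
    kap N n (heckeWordH N P c) = heckeWordJ N P (kap N n c) := by
  induction P using FreeAlgebra.induction generalizing c with
  | grade0 r =>
    rw [AlgHom.commutes, AlgHom.commutes, Module.algebraMap_end_apply,
      Module.algebraMap_end_apply, ← kapHom_apply n hn, ← kapHom_apply n hn, map_zsmul]
  | grade1 ℓ =>
    rw [heckeWordH_ι, heckeWordJ_ι]
    exact kap_hecke hn ℓ.1 ℓ.2 c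
  | mul a b ha hb =>
    rw [map_mul, map_mul, Module.End.mul_apply, Module.End.mul_apply, ha, hb]
  | add a b ha hb =>
    rw [map_add, map_add, LinearMap.add_apply, LinearMap.add_apply, kap_add hn, ha, hb]

/-- every torsion point is a value of some `κ_m`. -/
theorem exists_kap_eq_of_torsion {n : ℕ} (hn : 0 < n) (y : JZero N) (hy : n • y = 0) :
    ∃ (m : ℕ) (_ : 0 < m) (c : HomPar N), kap N m c = y := by
  obtain ⟨e, he, h⟩ := exists_kap_eq_nsmul N (parStatement N)
  obtain ⟨w, hw⟩ := Fermat.Agent.Div.jZero_divisible N e he y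
  have hm : 0 < n * e := Nat.mul_pos hn he
  have hw' : (n * e) • w = 0 := by rw [mul_nsmul', hw, hy]
  obtain ⟨c, hc⟩ := h (n * e) hm w hw'
  exact ⟨n * e, hm, c, by rw [hc, hw]⟩

/-- **(a)** a Hecke relation on `HomPar N` holds on the torsion of `J₀(N)(ℚ̄)`. -/
theorem heckeWordJ_torsion (P : FreeAlgebra ℤ (GoodPrime N)) (hP : heckeWordH N P = 0)
    {n : ℕ} (hn : 0 < n) (y : JZero N) (hy : n • y = 0) : heckeWordJ N P y = 0 := by
  obtain ⟨m, hm, c, rfl⟩ := exists_kap_eq_of_torsion hn y hy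
  rw [← kap_heckeWord hm, hP, LinearMap.zero_apply, kap_zero hm]

/-- two Hecke words with the same value on `HomPar N` agree on the torsion of `J₀(N)(ℚ̄)`. -/
theorem heckeWordJ_torsion_congr (P Q : FreeAlgebra ℤ (GoodPrime N))
    (hPQ : heckeWordH N P = heckeWordH N Q) {n : ℕ} (hn : 0 < n) (y : JZero N)
    (hy : n • y = 0) : heckeWordJ N P y = heckeWordJ N Q y := by
  have h := heckeWordJ_torsion (P - Q) (by rw [map_sub, hPQ, sub_self]) hn y hy
  rw [map_sub, LinearMap.sub_apply, sub_eq_zero] at h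
  exact h

end Fermat.Agent.R38
end
end MergeWrap_R38_Ret_TorsKill

section MergeWrap_R38_Ret_Tors -- from R38/Ret/Tors.lean

set_option autoImplicit false

noncomputable section

namespace Fermat.Agent.R38Ret

open ModularCurve ModularCurve.Period CongruenceSubgroup AlgebraicCurve
open Fermat.Agent.F3 Fermat.Agent.F3EC Fermat.Agent.F3EP Fermat.Agent.R38

variable (M : ℕ) [NeZero M] (S : Finset ℕ)

/-- the primes `ℓ ∤ M`, `ℓ ∉ S`. -/
abbrev OutPrime : Type := {ℓ : Nat.Primes // ¬ (ℓ : ℕ) ∣ M ∧ (ℓ : ℕ) ∉ (↑S : Set ℕ)}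

/-- a Hecke word in the Hecke algebra of cusp forms. -/
def tcEvS : FreeAlgebra ℤ (OutPrime M S) →ₐ[ℤ] CuspForm.heckeAlgebra M 2 (↑S : Set ℕ) :=
  FreeAlgebra.lift ℤ (fun ℓ : OutPrime M S =>
    (CuspForm.heckeAlgebra.T (k := 2) ℓ.1.2 ℓ.2.1 ℓ.2.2 : CuspForm.heckeAlgebra M 2 (↑S : Set ℕ)))

/-- a Hecke word on the `n`-torsion. -/
def tcEvT (n : ℕ) : FreeAlgebra ℤ (OutPrime M S) →ₐ[ℤ] Module.End ℤ (Jtors M n) :=
  FreeAlgebra.lift ℤ (fun ℓ : OutPrime M S => heckeTors M n ℓ.1)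

/-- forget the condition `ℓ ∉ S`. -/
def tcMap : FreeAlgebra ℤ (OutPrime M S) →ₐ[ℤ] FreeAlgebra ℤ (GoodPrime M) :=
  FreeAlgebra.lift ℤ (fun ℓ : OutPrime M S => FreeAlgebra.ι ℤ (⟨ℓ.1, ℓ.2.1⟩ : GoodPrime M))

@[simp]
theorem tcEvS_ι (ℓ : OutPrime M S) :
    tcEvS M S (FreeAlgebra.ι ℤ ℓ) = CuspForm.heckeAlgebra.T (k := 2) ℓ.1.2 ℓ.2.1 ℓ.2.2 := by
  simp [tcEvS]

@[simp]
theorem tcEvT_ι (n : ℕ) (ℓ : OutPrime M S) :
    tcEvT M S n (FreeAlgebra.ι ℤ ℓ) = heckeTors M n ℓ.1 := by
  simp [tcEvT]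

@[simp]
theorem tcMap_ι (ℓ : OutPrime M S) :
    tcMap M S (FreeAlgebra.ι ℤ ℓ) = FreeAlgebra.ι ℤ (⟨ℓ.1, ℓ.2.1⟩ : GoodPrime M) := by
  simp [tcMap]

variable {M S}

/-- the value of a Hecke word on the torsion is the restriction of its value on `J₀(M)(ℚ̄)`. -/
theorem tcEvT_coe (n : ℕ) (P : FreeAlgebra ℤ (OutPrime M S)) (y : Jtors M n) :
    ((tcEvT M S n P y : Jtors M n) : JZero M) = heckeWordJ M (tcMap M S P) (y : JZero M) := by
  induction P using FreeAlgebra.induction generalizing y with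
  | grade0 r =>
    rw [AlgHom.commutes, AlgHom.commutes, AlgHom.commutes, Module.algebraMap_end_apply,
      Module.algebraMap_end_apply, Submodule.coe_smul]
  | grade1 ℓ =>
    rw [tcEvT_ι, tcMap_ι, heckeWordJ_ι]
    rfl
  | mul a b ha hb =>
    rw [map_mul, map_mul, map_mul, Module.End.mul_apply, Module.End.mul_apply, ha, hb]
  | add a b ha hb =>
    rw [map_add, map_add, map_add, LinearMap.add_apply, LinearMap.add_apply, Submodule.coe_add,
      ha, hb]

/-- the value of a Hecke word on `HomPar M` is the image under `θ` of its value on cusp forms. -/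
theorem theta_tcEvS (hMS : ∀ q : ℕ, q.Prime → q ∣ M → q ∈ (↑S : Set ℕ))
    (P : FreeAlgebra ℤ (OutPrime M S)) :
    theta (heckeInvolutionComm M) hMS (tcEvS M S P) = heckeWordH M (tcMap M S P) := by
  induction P using FreeAlgebra.induction with
  | grade0 r =>
    rw [AlgHom.commutes, AlgHom.commutes, AlgHom.commutes, eq_intCast, eq_intCast, map_intCast]
  | grade1 ℓ =>
    rw [tcEvS_ι, tcMap_ι, heckeWordH_ι, theta_T]
    rfl
  | mul a b ha hb =>
    rw [map_mul, map_mul, map_mul, map_mul, ha, hb]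
  | add a b ha hb =>
    rw [map_add, map_add, map_add, map_add, ha, hb]

/-- a Hecke word which is `0` on cusp forms is `0` on the torsion. -/
theorem tcEvT_eq_zero (hMS : ∀ q : ℕ, q.Prime → q ∣ M → q ∈ (↑S : Set ℕ)) {n : ℕ} (hn : 0 < n)
    (P : FreeAlgebra ℤ (OutPrime M S)) (hP : tcEvS M S P = 0) : tcEvT M S n P = 0 := by
  have h1 : heckeWordH M (tcMap M S P) = 0 := by
    rw [← theta_tcEvS hMS, hP, map_zero]
  refine LinearMap.ext fun y => Subtype.ext ?_
  rw [tcEvT_coe, LinearMap.zero_apply, Submodule.coe_zero]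
  refine heckeWordJ_torsion _ h1 hn (y : JZero M) ?_
  have h2 := y.2
  rw [Submodule.mem_torsionBy_iff] at h2
  rw [← natCast_zsmul]
  exact h2

/-- every element of the Hecke algebra away from `S ⊇ {q ∣ M}` is the value of a Hecke word. -/
theorem tcEvS_surjective (hMS : ∀ q : ℕ, q.Prime → q ∣ M → q ∈ (↑S : Set ℕ)) :
    Function.Surjective (tcEvS M S) := by
  rintro ⟨t, ht⟩
  induction ht using Algebra.adjoin_induction with
  | mem x hx =>
    rcases hx with ⟨ℓ, hℓ, hℓN, hℓS, rfl⟩ | ⟨q, hqN, hq, hqS, rfl⟩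
    · exact ⟨FreeAlgebra.ι ℤ (⟨⟨ℓ, hℓ⟩, hℓN, hℓS⟩ : OutPrime M S), by rw [tcEvS_ι]; rfl⟩
    · exact absurd (hMS q hq hqN) hqS
  | algebraMap r =>
    exact ⟨algebraMap ℤ _ r, by rw [AlgHom.commutes]; rfl⟩
  | add x y hx' hy' hx hy =>
    obtain ⟨f, hf⟩ := hx
    obtain ⟨g, hg⟩ := hy
    exact ⟨f + g, by rw [map_add, hf, hg]; rfl⟩
  | mul x y hx' hy' hx hy =>
    obtain ⟨f, hf⟩ := hx
    obtain ⟨g, hg⟩ := hy
    exact ⟨f * g, by rw [map_mul, hf, hg]; rfl⟩

/-- **(R-C)** the Hecke algebra of cusp forms acts on the torsion of `J₀(M)(ℚ̄)`. -/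
theorem heckeActsOnTors (hMS : ∀ q : ℕ, q.Prime → q ∣ M → q ∈ (↑S : Set ℕ)) :
    HeckeActsOnTors M S := by
  intro n hn
  let f : FreeAlgebra ℤ (OutPrime M S) →+* CuspForm.heckeAlgebra M 2 (↑S : Set ℕ) :=
    (tcEvS M S).toRingHom
  let g : FreeAlgebra ℤ (OutPrime M S) →+* Module.End ℤ (Jtors M n) := (tcEvT M S n).toRingHom
  have hf : Function.Surjective f := tcEvS_surjective hMS
  have hker : RingHom.ker f ≤ RingHom.ker g := by
    intro P hP
    rw [RingHom.mem_ker] at hP ⊢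
    exact tcEvT_eq_zero hMS hn P hP
  refine ⟨RingHom.liftOfSurjective f hf ⟨g, hker⟩, ?_⟩
  intro ℓ hℓ hℓM hℓS
  have h := RingHom.liftOfRightInverse_comp_apply f (Function.surjInv hf)
    (Function.rightInverse_surjInv hf) ⟨g, hker⟩
    (FreeAlgebra.ι ℤ (⟨⟨ℓ, hℓ⟩, hℓM, hℓS⟩ : OutPrime M S))
  have h1 : f (FreeAlgebra.ι ℤ (⟨⟨ℓ, hℓ⟩, hℓM, hℓS⟩ : OutPrime M S)) =
      CuspForm.heckeAlgebra.T hℓ hℓM hℓS := tcEvS_ι M S _
  have h2 : g (FreeAlgebra.ι ℤ (⟨⟨ℓ, hℓ⟩, hℓM, hℓS⟩ : OutPrime M S)) = heckeTors M n ⟨ℓ, hℓ⟩ :=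
    tcEvT_ι M S n _
  rw [h1] at h
  rw [← h2]
  exact h

end Fermat.Agent.R38Ret
end
end MergeWrap_R38_Ret_Tors

section MergeWrap_R38_Ret_RigInst -- from R38/Ret/RigInst.lean

set_option autoImplicit false

noncomputable section

namespace Fermat.Agent.R38Ret

open ModularCurve AlgebraicCurve Fermat.Agent.F3

local notation "Qb" => AlgebraicClosure ℚ

/-- every element of the ring generated by the Hecke operators commutes with `G_ℚ`. -/
theorem ri_comm_of_mem_adjoin (M : ℕ) [NeZero M] {φ : Module.End ℤ (JZero M)}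
    (hφ : φ ∈ Algebra.adjoin ℤ (Set.range (heckeOperatorBar M))) (s : GQ) (x : JZero M) :
    φ (s • x) = s • φ x := by
  induction hφ using Algebra.adjoin_induction generalizing x with
  | mem φ hφ =>
    obtain ⟨ℓ, rfl⟩ := hφ
    exact Fermat.Agent.F3G.heckeGaloisComm M ℓ s x
  | algebraMap r =>
    rw [Module.algebraMap_end_apply, Module.algebraMap_end_apply, smul_comm]
  | add φ ψ _ _ h1 h2 =>
    rw [LinearMap.add_apply, LinearMap.add_apply, h1, h2, smul_add]
  | mul φ ψ _ _ h1 h2 =>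
    rw [Module.End.mul_apply, Module.End.mul_apply, h2, h1]

/-- **(RIG)** rigidity by division. -/
theorem rigStatement {p M : ℕ} [NeZero M] (hexp : RedFiniteExp p M) : RigStatement p M := by
  intro A hA φ hφ htors x
  obtain ⟨U, m, hm, hUx, hUw⟩ := hexp A hA x
  have hmpos : 0 < m := Nat.pos_of_ne_zero hm
  obtain ⟨x', hx'⟩ := Fermat.Agent.Div.jZero_divisible M m hmpos x
  have hfix : ∀ s ∈ U, s • φ x' = φ x' := by
    intro s hs
    have h0 : s • (m • x') = m • (s • x') :=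
      map_nsmul (DistribSMul.toAddMonoidHom (JZero M) s) m x'
    have h1 : m • (s • x' - x') = 0 := by
      rw [nsmul_sub, ← h0, hx', hUx s hs, sub_self]
    have h2 : φ (s • x' - x') = 0 := htors m _ hmpos h1
    rw [map_sub, sub_eq_zero, ri_comm_of_mem_adjoin M hφ] at h2
    exact h2
  have h3 := hUw (φ x') hfix
  rw [← hx', map_nsmul, map_nsmul]
  exact h3

end Fermat.Agent.R38Ret
end
end MergeWrap_R38_Ret_RigInst

section MergeWrap_R38_Ret_Final -- from R38/Ret/Final.lean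

/-!
# Row 38, block R (RET): the assembly  (sub-architect helper44)

`retStatement_of_frob` : `RedFrobCompat p M → RetStatement p M S`
(`p` prime, `p ∤ M`, `p ∈ S`, the primes of `M` in `S`).

Proof.  Let `x` be as in `RetInput`: `red x ≠ 0`, `p • red x = 0`, `red (T_ℓ x - a ℓ • x) = 0`.
For a Hecke word `P` in the primes outside `S` write `P x` for its value on `J₀(M)(ℚ̄)`.
* `ret_word_red_eq_zero` : a word which is `0` in the Hecke algebra of cusp forms kills the torsion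
  (`tcEvT_eq_zero`, helper34), hence `red (P x) = 0` (rigidity by division: `rigStatement`);
* `ret_word_ker` : the kernel of `red` is stable under the words (`ES15.heckeRed_of_not_dvd`);
* `ret_ideal` : for every `t` in the ideal generated by `p` and the `T_ℓ - a ℓ`, every word `P`
  with value `t` has `red (P x) = 0`.
So `1` is not in this ideal, and `goingUp` (helper17) gives the eigenform.
-/

set_option autoImplicit false
set_option linter.unusedSectionVars false
set_option linter.unusedVariables false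

noncomputable section

namespace Fermat.Agent.R38Ret

open ModularCurve AlgebraicCurve Fermat.Agent.F3 Fermat.Agent.R38

local notation "Qb" => AlgebraicClosure ℚ

variable {M : ℕ} [NeZero M] {S : Finset ℕ}

/-- the value on `J₀(M)(ℚ̄)` of a Hecke word in the primes outside `S`. -/
def retEvJ (M : ℕ) [NeZero M] (S : Finset ℕ) :
    FreeAlgebra ℤ (OutPrime M S) →ₐ[ℤ] Module.End ℤ (JZero M) :=
  (heckeWordJ M).comp (tcMap M S)

theorem retEvJ_apply (P : FreeAlgebra ℤ (OutPrime M S)) :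
    retEvJ M S P = heckeWordJ M (tcMap M S P) := rfl

theorem retEvJ_ι (ℓ : OutPrime M S) :
    retEvJ M S (FreeAlgebra.ι ℤ ℓ) = heckeOperatorBar M ℓ.1 := by
  rw [retEvJ_apply, tcMap_ι, heckeWordJ_ι]

/-- the values of the Hecke words lie in the ring generated by the Hecke operators. -/
theorem ret_heckeWordJ_mem (Q : FreeAlgebra ℤ (GoodPrime M)) :
    heckeWordJ M Q ∈ Algebra.adjoin ℤ (Set.range (heckeOperatorBar M)) := by
  induction Q using FreeAlgebra.induction with
  | grade0 r =>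
    rw [AlgHom.commutes]
    exact Subalgebra.algebraMap_mem _ r
  | grade1 ℓ =>
    rw [heckeWordJ_ι]
    exact Algebra.subset_adjoin ⟨ℓ.1, rfl⟩
  | mul a b ha hb =>
    rw [map_mul]
    exact Subalgebra.mul_mem _ ha hb
  | add a b ha hb =>
    rw [map_add]
    exact Subalgebra.add_mem _ ha hb

/-- a word which is `0` on cusp forms has value `0` after reduction. -/
theorem ret_word_red_eq_zero {p : ℕ} (hMS : ∀ q : ℕ, q.Prime → q ∣ M → q ∈ (↑S : Set ℕ))
    (hrig : RigStatement p M) (A : ValuationSubring Qb) (hA : A.LiesOverPrime p)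
    (P : FreeAlgebra ℤ (OutPrime M S)) (hP : tcEvS M S P = 0) (x : JZero M) :
    reductionModL A M (retEvJ M S P x) = 0 := by
  refine hrig A hA (retEvJ M S P) (ret_heckeWordJ_mem _) ?_ x
  intro n y hn hy
  have hy' : y ∈ Jtors M n := by
    rw [Submodule.mem_torsionBy_iff, natCast_zsmul]
    exact hy
  have h1 := tcEvT_coe (M := M) (S := S) n P ⟨y, hy'⟩
  rw [tcEvT_eq_zero hMS hn P hP] at h1
  rw [retEvJ_apply]
  exact h1.symm

/-- the kernel of the reduction is stable under the Hecke words in the primes outside `S`. -/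
theorem ret_word_ker {p : ℕ} (hp : p.Prime) (hpM : ¬ p ∣ M) (hpS : p ∈ S)
    (A : ValuationSubring Qb) (hA : A.LiesOverPrime p)
    (P : FreeAlgebra ℤ (OutPrime M S)) (u : JZero M) (hu : reductionModL A M u = 0) :
    reductionModL A M (retEvJ M S P u) = 0 := by
  induction P using FreeAlgebra.induction generalizing u with
  | grade0 r =>
    rw [AlgHom.commutes, Module.algebraMap_end_apply, map_zsmul, hu, smul_zero]
  | grade1 ℓ =>
    rw [retEvJ_ι]
    have hne : ((ℓ.1 : Nat.Primes) : ℕ) ≠ p := by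
      intro h
      exact ℓ.2.2 (by rw [h]; exact Finset.mem_coe.mpr hpS)
    exact Fermat.Agent.ES15.heckeRed_of_not_dvd M A p hp hA hpM ℓ.1 hne u hu
  | mul a b ha hb =>
    rw [map_mul, Module.End.mul_apply]
    exact ha _ (hb u hu)
  | add a b ha hb =>
    rw [map_add, LinearMap.add_apply, map_add, ha u hu, hb u hu, add_zero]

/-- every word whose value lies in the eigen-ideal modulo `p` kills `x` after reduction. -/
theorem ret_ideal {p : ℕ} (hp : p.Prime) (hpM : ¬ p ∣ M) (hpS : p ∈ S)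
    (hMS : ∀ q : ℕ, q.Prime → q ∣ M → q ∈ (↑S : Set ℕ))
    (hrig : RigStatement p M) (A : ValuationSubring Qb) (hA : A.LiesOverPrime p)
    (a : ℕ → ℤ) (x : JZero M) (hxp : p • reductionModL A M x = 0)
    (hxe : ∀ ℓ : Nat.Primes, (ℓ : ℕ) ∉ S →
      reductionModL A M (heckeOperatorBar M ℓ x - a ℓ • x) = 0)
    (t : CuspForm.heckeAlgebra M 2 (↑S : Set ℕ)) (ht : t ∈ eigenIdealModP p M S a) :
    ∀ P : FreeAlgebra ℤ (OutPrime M S), tcEvS M S P = t →
      reductionModL A M (retEvJ M S P x) = 0 := by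
  -- two words with the same value have the same reduction at `x`
  have hcongr : ∀ P Q : FreeAlgebra ℤ (OutPrime M S), tcEvS M S P = tcEvS M S Q →
      reductionModL A M (retEvJ M S Q x) = 0 → reductionModL A M (retEvJ M S P x) = 0 := by
    intro P Q hPQ hQ
    have h0 : tcEvS M S (P - Q) = 0 := by rw [map_sub, hPQ, sub_self]
    have h1 := ret_word_red_eq_zero hMS hrig A hA (P - Q) h0 x
    rw [map_sub, LinearMap.sub_apply, map_sub, hQ, sub_zero] at h1
    exact h1
  unfold eigenIdealModP at ht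
  induction ht using Submodule.span_induction with
  | mem t ht =>
    intro P hP
    rcases ht with ht | ⟨ℓ, hℓ, hℓM, hℓS, rfl⟩
    · rw [Set.mem_singleton_iff] at ht
      subst ht
      refine hcongr P ((p : ℕ) : FreeAlgebra ℤ (OutPrime M S)) ?_ ?_
      · rw [hP, map_natCast]
      · rw [map_natCast]
        have h2 : ((p : ℕ) : Module.End ℤ (JZero M)) x = p • x := by
          rw [← nsmul_one, LinearMap.smul_apply, Module.End.one_apply]
        rw [h2, map_nsmul]
        exact hxp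
    · refine hcongr P (FreeAlgebra.ι ℤ (⟨⟨ℓ, hℓ⟩, hℓM, hℓS⟩ : OutPrime M S) -
          algebraMap ℤ _ (a ℓ)) ?_ ?_
      · rw [hP, map_sub, tcEvS_ι, AlgHom.commutes]
        rfl
      · rw [map_sub, retEvJ_ι, AlgHom.commutes, LinearMap.sub_apply,
          Module.algebraMap_end_apply]
        exact hxe ⟨ℓ, hℓ⟩ (fun h => hℓS (Finset.mem_coe.mpr h))
  | zero =>
    intro P hP
    exact ret_word_red_eq_zero hMS hrig A hA P hP x
  | add t₁ t₂ _ _ h₁ h₂ =>
    intro P hP
    obtain ⟨P₁, hP₁⟩ := tcEvS_surjective hMS t₁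
    have hP₂ : tcEvS M S (P - P₁) = t₂ := by rw [map_sub, hP, hP₁, add_sub_cancel_left]
    have h : retEvJ M S P x = retEvJ M S P₁ x + retEvJ M S (P - P₁) x := by
      rw [map_sub, LinearMap.sub_apply, add_sub_cancel]
    rw [h, map_add, h₁ P₁ hP₁, h₂ (P - P₁) hP₂, add_zero]
  | smul r t _ h =>
    intro P hP
    obtain ⟨Pr, hPr⟩ := tcEvS_surjective hMS r
    obtain ⟨Pt, hPt⟩ := tcEvS_surjective hMS t
    refine hcongr P (Pr * Pt) ?_ ?_
    · rw [hP, map_mul, hPr, hPt, smul_eq_mul]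
    · rw [map_mul, Module.End.mul_apply]
      exact ret_word_ker hp hpM hpS A hA Pr _ (h Pt hPt)

/-- the eigen-ideal modulo `p` attached to a `RetInput` is proper. -/
theorem ret_eigenIdeal_ne_top {p : ℕ} (hp : p.Prime) (hpM : ¬ p ∣ M) (hpS : p ∈ S)
    (hMS : ∀ q : ℕ, q.Prime → q ∣ M → q ∈ (↑S : Set ℕ))
    (hrig : RigStatement p M) (A : ValuationSubring Qb) (hA : A.LiesOverPrime p)
    (a : ℕ → ℤ) (h : RetInput p M S A a) : eigenIdealModP p M S a ≠ ⊤ := by
  obtain ⟨x, hx0, hxp, hxe⟩ := h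
  intro htop
  have h1 : (1 : CuspForm.heckeAlgebra M 2 (↑S : Set ℕ)) ∈ eigenIdealModP p M S a := by
    rw [htop]
    exact Submodule.mem_top
  have h2 := ret_ideal hp hpM hpS hMS hrig A hA a x hxp hxe 1 h1 1 (map_one _)
  rw [map_one, Module.End.one_apply] at h2
  exact hx0 h2

/-- **(RET)** from rigidity. -/
theorem retStatement_of_rig {p : ℕ} (hp : p.Prime) (hpM : ¬ p ∣ M) (hpS : p ∈ S)
    (hMS : ∀ q : ℕ, q.Prime → q ∣ M → q ∈ S) (hrig : RigStatement p M) :
    RetStatement p M S := by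
  intro A hA a hin
  have hMS' : ∀ q : ℕ, q.Prime → q ∣ M → q ∈ (↑S : Set ℕ) :=
    fun q hq hqM => Finset.mem_coe.mpr (hMS q hq hqM)
  exact goingUp p M S a (ret_eigenIdeal_ne_top hp hpM hpS hMS' hrig A hA a hin)

/-- **(RET)** from the compatibility of the reduction with a Frobenius structure. -/
theorem retStatement_of_frob {p : ℕ} (hp : p.Prime) (hpM : ¬ p ∣ M) (hpS : p ∈ S)
    (hMS : ∀ q : ℕ, q.Prime → q ∣ M → q ∈ S) (hfrob : RedFrobCompat p M) :
    RetStatement p M S :=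
  retStatement_of_rig hp hpM hpS hMS
    (rigStatement (redFiniteExp (fun x => Fermat.Agent.S17W.openStab M x) hfrob))

end Fermat.Agent.R38Ret
end
end MergeWrap_R38_Ret_Final
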