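import Mathlib
import Fermat.Agent.MUL.E.S15.HeckeRed
import Fermat.Agent.MUL.R38.Ret.BridgeDefs
import Fermat.Agent.MUL.Lib.Kronecker.Integral
import Fermat.Agent.MUL.Lib.Kronecker.Prod
import Fermat.Agent.MUL.E.S15.RedInputsAll
import Fermat.Agent.MUL.Lib.BadRed.Mod.GaussSetupFinal
import Fermat.Agent.MUL.Orig.F3.I2.RootClass
import Fermat.Agent.MUL.R38.Spine
import Fermat.Agent.MUL.R38.T.SpJT

section MergeWrap_R38_Ret_RedSurj -- from R38/Ret/RedSurj.lean

set_option autoImplicit false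
set_option linter.style.haveILetI false
set_option linter.unusedSectionVars false
set_option synthInstance.maxHeartbeats 400000

noncomputable section

open AlgebraicCurve ModularCurve HahnSeries Fermat.Agent.RR Fermat.Agent.Deuring Fermat.Agent.FF
  Fermat.Agent.RedTr Fermat.Agent.GaussInt

namespace Fermat.Agent.R38Ret

local notation "Qb" => AlgebraicClosure ℚ

section Abstract

variable {K E k Ek : Type*} [Field K] [Field E] [Algebra K E]
  [Field k] [Field Ek] [Algebra k Ek]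

/-- a map of places with the push property is onto. -/
theorem redSurj_of_isPush (S : ValSetup K E k Ek) {r : Place K E → Place k Ek}
    (hr : IsPush S r) : Function.Surjective r := by
  classical
  intro Q
  obtain ⟨π, hπ⟩ := IsDiscreteValuationRing.exists_irreducible Q.toValuationSubring
  have hπ0 : ((π : Q.toValuationSubring) : Ek) ≠ 0 := by
    intro h
    exact hπ.ne_zero (Subtype.ext h)
  obtain ⟨u, hu, hui, hu0, hured⟩ := Fermat.Agent.ES15.heckeRed_exists_lift S hπ0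
  have h1 : Finsupp.mapDomain r (divOf S.hF u) Q = 1 := by
    rw [hr u hu hui hu0 Q, hured]
    exact Q.ord_coe_irreducible hπ
  by_contra hQ
  have h0 : Finsupp.mapDomain r (divOf S.hF u) Q = 0 :=
    Finsupp.mapDomain_of_notMem_range _ _ (fun ⟨P, hP⟩ => hQ ⟨P, hP⟩)
  rw [h0] at h1
  exact zero_ne_one h1

/-- lifting divisors along a surjective degree-preserving map of places. -/
theorem exists_divisor_lift {r : Place K E → Place k Ek} (hr : Function.Surjective r)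
    (Y : Divisor k Ek) : ∃ X : Divisor K E, Finsupp.mapDomain r X = Y := by
  classical
  refine ⟨Finsupp.mapDomain (Function.surjInv hr) Y, ?_⟩
  rw [← Finsupp.mapDomain_comp]
  have : r ∘ Function.surjInv hr = id := funext fun Q => Function.surjInv_eq hr Q
  rw [this, Finsupp.mapDomain_id]

end Abstract

/-- **(R-6b1)** every place of the special fibre is the reduction of a place. -/
theorem placeReductionModL_surjective (A : ValuationSubring Qb) (ℓ N : ℕ) [NeZero N]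
    (hℓ : ℓ.Prime) (hA : A.LiesOverPrime ℓ) (hℓN : ¬ ℓ ∣ N) (hin : ReductionInputsModL A N) :
    Function.Surjective (placeReductionModL hin) :=
  redSurj_of_isPush (modularValSetup A ℓ N hℓ hA hℓN)
    (Fermat.Agent.ES15.heckeRed_isPush_of_isPlaceReduction A ℓ N hℓ hA hℓN
      (isPlaceReductionModL_placeReductionModL hin))

/-- **(R-6b1)** every divisor of degree `0` of the special fibre is the reduction of a divisor of
degree `0`. -/
theorem exists_degZero_lift (A : ValuationSubring Qb) (ℓ N : ℕ) [NeZero N]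
    (hℓ : ℓ.Prime) (hA : A.LiesOverPrime ℓ) (hℓN : ¬ ℓ ∣ N) (hin : ReductionInputsModL A N)
    (Ybar : Divisor.degZero (K := IsLocalRing.ResidueField A)
      (F := modularFunctionFieldFullC (IsLocalRing.ResidueField A) N)) :
    ∃ X : Divisor.degZero (K := Qb) (F := modularFunctionFieldBar N),
      reductionDegZeroAlong (placeReductionModL hin)
        (isPlaceReductionModL_placeReductionModL hin).1 X = Ybar := by
  obtain ⟨X, hX⟩ := exists_divisor_lift
    (placeReductionModL_surjective A ℓ N hℓ hA hℓN hin)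
    (Ybar : Divisor (IsLocalRing.ResidueField A)
      (modularFunctionFieldFullC (IsLocalRing.ResidueField A) N))
  have hdeg := (isPlaceReductionModL_placeReductionModL hin).1
  have hX0 : X ∈ Divisor.degZero (K := Qb) (F := modularFunctionFieldBar N) := by
    rw [Divisor.mem_degZero, ← degree_mapDomain_of_deg_eq hdeg, hX]
    exact Divisor.mem_degZero.mp Ybar.2
  refine ⟨⟨X, hX0⟩, Subtype.ext ?_⟩
  rw [coe_reductionDegZeroAlong]
  exact hX

/-- the reduction map `J₀(N)(ℚ̄) → Pic⁰` of the special fibre is onto (good reduction). -/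
theorem reductionModL_surjective (A : ValuationSubring Qb) (ℓ N : ℕ) [NeZero N]
    (hℓ : ℓ.Prime) (hA : A.LiesOverPrime ℓ) (hℓN : ¬ ℓ ∣ N) (hin : ReductionInputsModL A N) :
    Function.Surjective (reductionModL A N) := by
  intro y
  obtain ⟨Ybar, rfl⟩ := Pic0.mk_surjective y
  obtain ⟨X, hX⟩ := exists_degZero_lift A ℓ N hℓ hA hℓN hin Ybar
  exact ⟨Pic0.mk X, by rw [reductionModL_mk hin, hX]⟩

end Fermat.Agent.R38Ret
end
end MergeWrap_R38_Ret_RedSurj

section MergeWrap_R38_Ret_NpfRed -- from R38/Ret/NpfRed.lean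

/-!
# Row 38, block R, seat R-6k (helper84): `NpfRed p`

The reduction (Gauss valuation at a place `A` of `ℚ̄` over `p`) of the Hecke norm
`T_ℓ f = Norm_{F_{Nℓ}/F_N} (f(q^ℓ))` is the formal norm of the reduction of `f`, for every
prime `ℓ ≠ p`, `ℓ ∤ N`, at every level `N`.

* `npf_integral` : the integral product formula: for `y ∈ A((q)) ∩ F_N` there is `z ∈ A((q))`
  with `emb z = T_ℓ y` and `z(q^ℓ) = y(q^{ℓ²}) ∏_{b<ℓ} y(ζ^b q)` over `A`;
* `isPrimitiveRoot_residue_units` : a primitive `ℓ`-th root of unity of `A` stays primitive in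
  the residue field when `ℓ` is prime to the residue characteristic;
* `isPres_heckeFun` : presentations are carried to presentations;
* `npfRed : NpfRed p`.
-/

set_option autoImplicit false
set_option synthInstance.maxHeartbeats 400000
set_option linter.unusedVariables false
set_option linter.style.longLine false
set_option linter.unusedSectionVars false

noncomputable section

namespace Fermat.Agent.R38Ret

open ModularCurve AlgebraicCurve HahnSeries Fermat.Agent.GaussInt Fermat.Agent.Kronecker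
  Fermat.Agent.F3G Fermat.Agent.AtkinLehner

local notation "Qb" => AlgebraicClosure ℚ

/-- **Integral product formula**: for `y ∈ A((q)) ∩ F_N` the function `T_ℓ y` has coefficients
in `A`, and the product formula holds over `A`, for ONE primitive root `ζ_A ∈ Aˣ`. -/
theorem npf_integral (N ℓ : ℕ) [NeZero N] [NeZero ℓ] (hℓ : ℓ.Prime) (hℓN : ¬ ℓ ∣ N)
    (A : ValuationSubring Qb) :
    ∃ ζA : (↥A)ˣ, IsPrimitiveRoot ζA ℓ ∧
      ∀ (y : LaurentSeries A) (hy : emb A y ∈ modularFunctionFieldBar N),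
        ∃ z : LaurentSeries A,
          emb A z = ((heckeFun Qb N ℓ ⟨emb A y, hy⟩ : ↥(modularFunctionFieldBar N)) :
            LaurentSeries Qb) ∧
          qExpand ↥A ℓ z =
            qExpand ↥A (ℓ * ℓ) y * ∏ b ∈ Finset.range ℓ, scaleL (ζA ^ b) y := by
  obtain ⟨ζ, hζ, hform⟩ := normProductFormula N ℓ hℓ hℓN
  have hℓ0 : 0 < ℓ := hℓ.pos
  have hζpow : ((ζ : Qbˣ) : Qb) ^ ℓ = 1 := by
    rw [← Units.val_pow_eq_pow_val, hζ.pow_eq_one, Units.val_one]
  have hζinv : ((ζ⁻¹ : Qbˣ) : Qb) ^ ℓ = 1 := by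
    rw [← Units.val_pow_eq_pow_val, inv_pow, hζ.pow_eq_one, inv_one, Units.val_one]
  have hmem : (ζ : Qb) ∈ A := mem_valuationSubring_of_pow_eq_one A hℓ0 hζpow
  have hmem' : ((ζ⁻¹ : Qbˣ) : Qb) ∈ A := mem_valuationSubring_of_pow_eq_one A hℓ0 hζinv
  let ζA : (↥A)ˣ := ⟨⟨ζ, hmem⟩, ⟨((ζ⁻¹ : Qbˣ) : Qb), hmem'⟩,
    Subtype.ext (by simp), Subtype.ext (by simp)⟩
  have hmap : Units.map (A.subtype : ↥A →* Qb) ζA = ζ := Units.ext rfl
  have hinj : Function.Injective (Units.map (A.subtype : ↥A →* Qb)) :=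
    Units.map_injective Subtype.val_injective
  have hζA : IsPrimitiveRoot ζA ℓ :=
    IsPrimitiveRoot.of_map_of_injective (f := Units.map (A.subtype : ↥A →* Qb))
      (by rw [hmap]; exact hζ) hinj
  refine ⟨ζA, hζA, fun y hy => ?_⟩
  obtain ⟨W, hW⟩ := exists_qExpand_eq_of_scaleL_eq ℓ ζA hζA
    (∏ b ∈ Finset.range ℓ, scaleL (ζA ^ b) y) (scaleL_prod_scaleL ℓ ζA hζA.pow_eq_one y)
  refine ⟨qExpand ↥A ℓ y * W, ?_, ?_⟩
  · apply qExpand_injective (R := Qb) ℓ
    rw [hform ⟨emb A y, hy⟩, map_mul, map_mul, ← coeffMap_qExpand, ← coeffMap_qExpand,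
      ← coeffMap_qExpand, qExpand_qExpand, hW, map_prod]
    congr 1
    refine Finset.prod_congr rfl fun b _ => ?_
    rw [coeffMap_scaleL, map_pow]
    show scaleL (Units.map (A.subtype : ↥A →* Qb) ζA ^ b) _ = _
    rw [hmap]
  · rw [map_mul, qExpand_qExpand, hW]

/-- A primitive `ℓ`-th root of unity of a local domain stays primitive in the residue field
as soon as `ℓ` is invertible there. -/
theorem isPrimitiveRoot_residue_units {R : Type*} [CommRing R] [IsDomain R] [IsLocalRing R]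
    (ℓ : ℕ) (hℓ : 0 < ℓ) (hne : ((ℓ : ℕ) : IsLocalRing.ResidueField R) ≠ 0)
    (ζ : Rˣ) (hζ : IsPrimitiveRoot ζ ℓ) :
    IsPrimitiveRoot (Units.map (IsLocalRing.residue R : R →* IsLocalRing.ResidueField R) ζ) ℓ := by
  have : NeZero ((ℓ : ℕ) : IsLocalRing.ResidueField R) := ⟨hne⟩
  have h1 : IsPrimitiveRoot ((ζ : Rˣ) : R) ℓ := IsPrimitiveRoot.coe_units_iff.mpr hζ
  have h2 : (Polynomial.cyclotomic ℓ R).IsRoot (ζ : R) := h1.isRoot_cyclotomic hℓ
  have h3 : (Polynomial.cyclotomic ℓ (IsLocalRing.ResidueField R)).IsRoot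
      (IsLocalRing.residue R (ζ : R)) := by
    rw [← Polynomial.map_cyclotomic ℓ (IsLocalRing.residue R)]
    exact h2.map
  have h4 : IsPrimitiveRoot (IsLocalRing.residue R (ζ : R)) ℓ :=
    (Polynomial.isRoot_cyclotomic_iff).mp h3
  exact IsPrimitiveRoot.coe_units_iff.mp h4

/-- Reduction of the integral product formula. -/
theorem npf_red_formula (A : ValuationSubring Qb) (ℓ : ℕ) [NeZero ℓ] (ζA : (↥A)ˣ)
    (y z : LaurentSeries A)
    (hz : qExpand ↥A ℓ z =
      qExpand ↥A (ℓ * ℓ) y * ∏ b ∈ Finset.range ℓ, scaleL (ζA ^ b) y) :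
    qExpand (IsLocalRing.ResidueField A) ℓ (red A z) =
      qExpand (IsLocalRing.ResidueField A) (ℓ * ℓ) (red A y) *
        ∏ b ∈ Finset.range ℓ,
          scaleL ((Units.map (IsLocalRing.residue A : ↥A →* IsLocalRing.ResidueField A) ζA) ^ b)
            (red A y) := by
  have h := congrArg (red A) hz
  rw [coeffMap_qExpand, map_mul, coeffMap_qExpand, map_prod] at h
  rw [h]
  congr 1
  refine Finset.prod_congr rfl fun b _ => ?_
  rw [coeffMap_scaleL, map_pow]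

/-- The product formula forces primitivity of the numerator of `T_ℓ`. -/
theorem npf_red_ne_zero {k : Type*} [Field k] (ℓ : ℕ) [NeZero ℓ] (ζ : kˣ)
    (w W : LaurentSeries k) (hw : w ≠ 0)
    (h : qExpand k ℓ W = qExpand k (ℓ * ℓ) w * ∏ b ∈ Finset.range ℓ, scaleL (ζ ^ b) w) :
    W ≠ 0 := by
  intro h0
  rw [h0, map_zero] at h
  rcases mul_eq_zero.mp h.symm with h1 | h1
  · exact hw (qExpand_injective (R := k) (ℓ * ℓ) (h1.trans (map_zero _).symm))
  · rw [Finset.prod_eq_zero_iff] at h1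
    obtain ⟨b, _, hb⟩ := h1
    exact hw ((map_eq_zero (scaleL (ζ ^ b))).mp hb)

/-- **Seat R-6k**: reduction commutes with the Hecke norm on functions, at every level. -/
theorem npfRed (p : ℕ) (hp : p.Prime) : NpfRed p := by
  intro N ℓ _ _ hℓ hℓN hℓp A hA f hf hres
  obtain ⟨ζA, hζA, hint⟩ := npf_integral N ℓ hℓ hℓN A
  obtain ⟨Y₁, Y₂, hpres⟩ := hf
  obtain ⟨z₁, hz₁, hq₁⟩ := hint Y₁ hpres.mem₁
  obtain ⟨z₂, hz₂, hq₂⟩ := hint Y₂ hpres.mem₂
  have hchar : CharP (IsLocalRing.ResidueField A) p :=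
    charP_residueField_of_liesOverPrime A p hp hA
  have hne : ((ℓ : ℕ) : IsLocalRing.ResidueField A) ≠ 0 := by
    intro h0
    have hdvd : p ∣ ℓ := (CharP.cast_eq_zero_iff (IsLocalRing.ResidueField A) p ℓ).mp h0
    exact hℓp ((Nat.prime_dvd_prime_iff_eq hp hℓ).mp hdvd).symm
  have hζk := isPrimitiveRoot_residue_units ℓ hℓ.pos hne ζA hζA
  have hr₁ := npf_red_formula A ℓ ζA Y₁ z₁ hq₁
  have hr₂ := npf_red_formula A ℓ ζA Y₂ z₂ hq₂
  have hprim : red A z₂ ≠ 0 := npf_red_ne_zero ℓ _ _ _ hpres.prim hr₂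
  have hmul : heckeFun Qb N ℓ f * heckeFun Qb N ℓ ⟨emb A Y₂, hpres.mem₂⟩ =
      heckeFun Qb N ℓ ⟨emb A Y₁, hpres.mem₁⟩ := by
    rw [← map_mul]
    congr 1
    exact Subtype.ext hpres.eq
  have hpres' : IsPres A (modularFunctionFieldBar N)
      ((heckeFun Qb N ℓ f : ↥(modularFunctionFieldBar N)) : LaurentSeries Qb) z₁ z₂ := by
    refine ⟨?_, ?_, hprim, ?_⟩
    · rw [hz₁]; exact SetLike.coe_mem _
    · rw [hz₂]; exact SetLike.coe_mem _
    · rw [hz₁, hz₂, ← hmul]; rfl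
  refine ⟨hpres'.mem_gaussSub, _, hζk, ?_⟩
  rw [gaussResFun_eq hpres, gaussResFun_eq hpres', map_div₀, map_div₀, hr₁, hr₂]
  simp_rw [map_div₀]
  rw [Finset.prod_div_distrib, mul_div_mul_comm]

end Fermat.Agent.R38Ret
end
end MergeWrap_R38_Ret_NpfRed

section MergeWrap_R38_Ret_BridgeM -- from R38/Ret/BridgeM.lean

/-!
# Row 38 (target S44), block R, seat R-6b (helper76): the level-`M` side of the BRIDGE

`bridge_of` : `BridgeInput D S A a → RetInput D.Q D.R S A a`, from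

* `hK : NpfRed D.Q`                      (seat R-6k: reduction of `T_ℓ f` = formal norm of `red f`),
* `hU` : uniqueness of the formal norm   (seat R-6b3),
* `hlift` : divisors of degree `0` of the reduction lift to level `M`  (seat R-6b1).

Proof (`p = D.Q`, `M = D.R`, `N = p M`): `g` a Gauss unit of `F_N` with reduction `h ∈ F_k(M)`,
`div h = p Ȳ`, `h` not a `p`-th power, `T_ℓ g = c g^a φ^p`.
`X` a lift of `Ȳ`, `x = [X]`: `red x = [Ȳ] ≠ 0`, `p red x = [div h] = 0`.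
`G` a Gauss unit of `F_M` with reduction `h`, `Z := p X - div G` has reduction `0`, so
`T_ℓ Z` has reduction `0` (`ES15.heckeRed_divisor`), and
`p red (T_ℓ X) = red (div (T_ℓ G)) = div (red (T_ℓ G)) = div (red (T_ℓ g)) = div (c̄ h^a ψ^p)
  = p (a Ȳ + div ψ)`.
-/

set_option autoImplicit false
set_option linter.style.haveILetI false
set_option linter.unusedSectionVars false
set_option linter.unusedVariables false
set_option synthInstance.maxHeartbeats 400000

noncomputable section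

namespace Fermat.Agent.R38Ret

open ModularCurve AlgebraicCurve HahnSeries Fermat.Agent.GaussInt Fermat.Agent.Kronecker
  Fermat.Agent.F3G Fermat.Agent.AtkinLehner Fermat.Agent.RR Fermat.Agent.Deuring
  Fermat.Agent.FF Fermat.Agent.RedTr Fermat.Agent.ES15 Fermat.Agent.BadRed Fermat.Agent.F3I2

local notation "Qb" => AlgebraicClosure ℚ

/-! ### abstract constant reductions: units and integer powers -/

section Abs

variable {K F k Fk : Type*} [Field K] [Field F] [Algebra K F]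
  [Field k] [Field Fk] [Algebra k Fk] (S : ValSetup K F k Fk)

/-- `f` is a unit of the valuation ring. -/
def BmUnit (f : F) : Prop := f ∈ S.Ov ∧ f⁻¹ ∈ S.Ov ∧ f ≠ 0

variable {S}

theorem BmUnit.red_ne_zero {f : F} (h : BmUnit S f) : S.red f ≠ 0 :=
  S.red_ne_zero h.1 h.2.1 h.2.2

theorem bmUnit_of_red_ne_zero {f : F} (h : S.red f ≠ 0) : BmUnit S f :=
  ⟨S.mem_of_red_ne_zero h, S.inv_mem_of_red_ne_zero h, S.ne_zero_of_red_ne_zero h⟩

theorem BmUnit.inv {f : F} (h : BmUnit S f) : BmUnit S f⁻¹ :=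
  ⟨h.2.1, by rw [inv_inv]; exact h.1, inv_ne_zero h.2.2⟩

theorem BmUnit.mul {f g : F} (hf : BmUnit S f) (hg : BmUnit S g) : BmUnit S (f * g) :=
  ⟨mul_mem hf.1 hg.1, by rw [mul_inv]; exact mul_mem hf.2.1 hg.2.1, mul_ne_zero hf.2.2 hg.2.2⟩

theorem BmUnit.pow {f : F} (hf : BmUnit S f) (n : ℕ) : BmUnit S (f ^ n) :=
  ⟨pow_mem hf.1 n, by rw [← inv_pow]; exact pow_mem hf.2.1 n, pow_ne_zero n hf.2.2⟩

theorem BmUnit.zpow {f : F} (hf : BmUnit S f) (a : ℤ) : BmUnit S (f ^ a) := by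
  cases a with
  | ofNat n =>
    rw [Int.ofNat_eq_natCast, zpow_natCast]
    exact hf.pow n
  | negSucc n =>
    rw [zpow_negSucc]
    exact (hf.pow (n + 1)).inv

theorem BmUnit.red_mul {f g : F} (hf : BmUnit S f) (hg : BmUnit S g) :
    S.red (f * g) = S.red f * S.red g := S.red_mul hf.1 hg.1

theorem BmUnit.red_inv {f : F} (hf : BmUnit S f) : S.red f⁻¹ = (S.red f)⁻¹ :=
  S.red_inv hf.1 hf.2.1 hf.2.2

theorem BmUnit.red_zpow {f : F} (hf : BmUnit S f) (a : ℤ) : S.red (f ^ a) = S.red f ^ a := by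
  cases a with
  | ofNat n =>
    rw [Int.ofNat_eq_natCast, zpow_natCast, zpow_natCast]
    exact S.red_pow hf.1 n
  | negSucc n =>
    rw [zpow_negSucc, zpow_negSucc, (hf.pow (n + 1)).red_inv, S.red_pow hf.1]

/-- generic algebra behind `bm_red_of_eq`. -/
theorem bm_alg_aux {K F : Type*} [Field K] [Field F] [Algebra K F] (p : ℕ) (T g' φ φ₁ : F)
    (c c₂ : K) (hg' : g' ≠ 0) (hφ₁ : φ₁ ≠ 0)
    (hT : T = algebraMap K F c * g' * φ ^ p) (hφeq : φ = φ₁ * algebraMap K F c₂) :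
    T = algebraMap K F (c * c₂ ^ p) * g' * φ₁ ^ p ∧
      algebraMap K F (c * c₂ ^ p) = T * g'⁻¹ * (φ₁ ^ p)⁻¹ := by
  have h1 : T = algebraMap K F (c * c₂ ^ p) * g' * φ₁ ^ p := by
    rw [hT, hφeq, mul_pow, map_mul, map_pow]
    ring
  refine ⟨h1, ?_⟩
  have hφ₁p : φ₁ ^ p ≠ 0 := pow_ne_zero _ hφ₁
  rw [h1]
  field_simp

/-- **abstract level-`N` computation**: if `T = c g^a φ^p` with `T`, `g` units of the constant
reduction, then `red T = c̄ (red g)^a ψ^p` with `c̄ ≠ 0`, `ψ ≠ 0`. -/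
theorem bm_red_of_eq {T g φ : F} (hTu : BmUnit S T) (hg : BmUnit S g) (a : ℤ) {c : K}
    (hφ : φ ≠ 0) (p : ℕ) (hT : T = algebraMap K F c * g ^ a * φ ^ p) :
    ∃ (cbar : k) (ψ : Fk), cbar ≠ 0 ∧ ψ ≠ 0 ∧
      S.red T = algebraMap k Fk cbar * S.red g ^ a * ψ ^ p := by
  obtain ⟨c₂, hc₂, hφ₁, hφ₁'⟩ := S.scale φ hφ
  have hc₂' : algebraMap K F c₂ ≠ 0 := by
    rwa [Ne, map_eq_zero]
  set φ₁ := φ * (algebraMap K F c₂)⁻¹ with hφ₁def
  have hφ₁u : BmUnit S φ₁ := ⟨hφ₁, hφ₁', mul_ne_zero hφ (inv_ne_zero hc₂')⟩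
  have hφeq : φ = φ₁ * algebraMap K F c₂ := by
    rw [hφ₁def, mul_assoc, inv_mul_cancel₀ hc₂', mul_one]
  have hga : g ^ a ≠ 0 := zpow_ne_zero _ hg.2.2
  obtain ⟨hTeq, hu⟩ := bm_alg_aux p T (g ^ a) φ φ₁ c c₂ hga hφ₁u.2.2 hT hφeq
  have huu : BmUnit S (algebraMap K F (c * c₂ ^ p)) := by
    rw [hu]
    exact (hTu.mul (hg.zpow a).inv).mul (hφ₁u.pow p).inv
  have hc₃A : c * c₂ ^ p ∈ S.A := (S.mem_Ov_iff _).mp huu.1
  refine ⟨S.res ⟨c * c₂ ^ p, hc₃A⟩, S.red φ₁, ?_, hφ₁u.red_ne_zero, ?_⟩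
  · intro h0
    apply huu.red_ne_zero
    rw [S.red_algebraMap hc₃A, h0, map_zero]
  · rw [hTeq, (huu.mul (hg.zpow a)).red_mul (hφ₁u.pow _), huu.red_mul (hg.zpow a),
      S.red_algebraMap hc₃A, hg.red_zpow, S.red_pow hφ₁u.1]

end Abs

/-! ### the Hecke norm of a Gauss unit is a Gauss unit -/

section Unit

variable {N ℓ : ℕ} [NeZero N] [NeZero ℓ] {A : ValuationSubring Qb} {p : ℕ}

/-- `T_ℓ (f⁻¹) = (T_ℓ f)⁻¹`. -/
theorem bm_heckeFun_inv (f : ↥(modularFunctionFieldBar N)) (hf : f ≠ 0) :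
    heckeFun Qb N ℓ f⁻¹ = (heckeFun Qb N ℓ f)⁻¹ := by
  have h1 : heckeFun Qb N ℓ f * heckeFun Qb N ℓ f⁻¹ = 1 := by
    rw [← map_mul, mul_inv_cancel₀ hf, map_one]
  exact eq_inv_of_mul_eq_one_right h1

/-- `T_ℓ (f ^ a) = (T_ℓ f) ^ a` for integers `a`. -/
theorem bm_heckeFun_zpow (f : ↥(modularFunctionFieldBar N)) (hf : f ≠ 0) (a : ℤ) :
    heckeFun Qb N ℓ (f ^ a) = (heckeFun Qb N ℓ f) ^ a := by
  cases a with
  | ofNat n =>
    rw [Int.ofNat_eq_natCast, zpow_natCast, zpow_natCast, map_pow]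
  | negSucc n =>
    rw [zpow_negSucc, zpow_negSucc, bm_heckeFun_inv _ (pow_ne_zero _ hf), map_pow]

/-- **Gauss units go to Gauss units**, and the reduction of `T_ℓ f` is the formal norm of the
reduction of `f` (from `NpfRed`), for any constant reduction `S` of `F_N` which is the Gauss
valuation at `A`. -/
theorem bm_heckeFun_unit (hK : NpfRed p) (hℓ : ℓ.Prime) (hℓN : ¬ ℓ ∣ N) (hℓp : ℓ ≠ p)
    (hA : A.LiesOverPrime p) {M : ℕ}
    (S : ValSetup Qb ↥(modularFunctionFieldBar N) (IsLocalRing.ResidueField A)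
      ↥(modularFunctionFieldFullC (IsLocalRing.ResidueField A) M))
    (hmem : ∀ f : ↥(modularFunctionFieldBar N),
      f ∈ S.Ov ↔ (f : LaurentSeries Qb) ∈ gaussSub A (modularFunctionFieldBar N))
    (hcoe : ∀ f : ↥(modularFunctionFieldBar N), f ∈ S.Ov →
      ((S.red f : ↥(modularFunctionFieldFullC (IsLocalRing.ResidueField A) M)) :
        LaurentSeries (IsLocalRing.ResidueField A)) =
        gaussResFun A (modularFunctionFieldBar N) (f : LaurentSeries Qb))
    {f : ↥(modularFunctionFieldBar N)} (hf : BmUnit S f) :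
    BmUnit S (heckeFun Qb N ℓ f) ∧
      IsFormalNorm ℓ
        ((S.red f : ↥(modularFunctionFieldFullC (IsLocalRing.ResidueField A) M)) :
          LaurentSeries (IsLocalRing.ResidueField A))
        ((S.red (heckeFun Qb N ℓ f) :
          ↥(modularFunctionFieldFullC (IsLocalRing.ResidueField A) M)) :
          LaurentSeries (IsLocalRing.ResidueField A)) := by
  have hne : ∀ u : ↥(modularFunctionFieldBar N), BmUnit S u →
      gaussResFun A (modularFunctionFieldBar N) (u : LaurentSeries Qb) ≠ 0 := by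
    intro u hu h0
    apply hu.red_ne_zero
    apply Subtype.ext
    rw [hcoe u hu.1, h0]
    rfl
  obtain ⟨h1, h2⟩ := hK N ℓ hℓ hℓN hℓp A hA f ((hmem f).mp hf.1) (hne f hf)
  obtain ⟨h3, -⟩ := hK N ℓ hℓ hℓN hℓp A hA f⁻¹ ((hmem _).mp hf.inv.1) (hne _ hf.inv)
  have hT0 : heckeFun Qb N ℓ f ≠ 0 := by
    intro h0
    have h4 : heckeFun Qb N ℓ f * heckeFun Qb N ℓ f⁻¹ = 1 := by
      rw [← map_mul, mul_inv_cancel₀ hf.2.2, map_one]
    rw [h0, zero_mul] at h4
    exact zero_ne_one h4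
  have hTu : BmUnit S (heckeFun Qb N ℓ f) := by
    refine ⟨(hmem _).mpr h1, ?_, hT0⟩
    rw [← bm_heckeFun_inv f hf.2.2]
    exact (hmem _).mpr h3
  refine ⟨hTu, ?_⟩
  rw [hcoe f hf.1, hcoe _ hTu.1]
  exact h2

end Unit

/-! ### the hypotheses delivered by the seats R-6b3 and R-6b1 -/

/-- (R-6b3) the formal norm is unique. -/
def FormalNormUnique (k : Type*) [Field k] : Prop :=
  ∀ (ℓ : ℕ) [NeZero ℓ], ℓ.Prime → ∀ w W W' : LaurentSeries k,
    IsFormalNorm ℓ w W → IsFormalNorm ℓ w W' → W = W'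

/-- (R-6b1) every divisor of degree `0` of the reduction is the reduction of a divisor of
degree `0`. -/
def DegZeroLift (M : ℕ) [NeZero M] (A : ValuationSubring Qb) (hin : ReductionInputsModL A M) :
    Prop :=
  ∀ Ybar : Divisor.degZero (K := IsLocalRing.ResidueField A)
      (F := ↥(modularFunctionFieldFullC (IsLocalRing.ResidueField A) M)),
    ∃ X : Divisor.degZero (K := Qb) (F := ↥(modularFunctionFieldBar M)),
      reductionDegZeroAlong (placeReductionModL hin)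
        (isPlaceReductionModL_placeReductionModL hin).1 X = Ybar


/-! ### the abstract core of the bridge -/

section Core

variable {K E k Ek : Type*} [Field K] [Field E] [Algebra K E]
  [Field k] [Field Ek] [Algebra k Ek]

/-- a class `[(1/p) div h]` with `h` not a `p`-th power is not `0` (`k` algebraically closed). -/
theorem bm_mk_ne_zero (hFk : IsRRField k Ek) [IsAlgClosed k] {p : ℕ} (hp : 0 < p) {h : Ek}
    {Ybar : Divisor.degZero (K := k) (F := Ek)} (hY : IsRootDiv p h Ybar)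
    (hnpow : ¬ ∃ s : Ek, s ^ p = h) : Pic0.mk Ybar ≠ 0 := by
  intro h0
  obtain ⟨y, hy, hord⟩ := hY.exists_of_mk_eq_zero h0
  have hyp : y ^ p ≠ 0 := pow_ne_zero _ hy
  have hu : h * (y ^ p)⁻¹ ∈ riemannRochSpace (0 : Divisor k Ek) := by
    rw [mem_riemannRochSpace_iff]
    intro v
    right
    rw [Finsupp.zero_apply, neg_zero, v.ord_mul hY.1 (inv_ne_zero hyp), v.ord_inv,
      ← zpow_natCast, v.ord_zpow, hord v]
    simp
  obtain ⟨c, hc⟩ := (mem_riemannRochSpace_zero_iff hFk _).mp hu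
  obtain ⟨d, hd⟩ := IsAlgClosed.exists_pow_nat_eq c hp
  apply hnpow
  refine ⟨algebraMap k Ek d * y, ?_⟩
  rw [mul_pow, ← map_pow, hd, hc, mul_assoc, inv_mul_cancel₀ hyp, mul_one]

/-- **abstract bridge, divisor form**: `red (T X) = a • red X + div ψ`. -/
theorem bm_core (S : ValSetup K E k Ek) {r₀ : Place K E → Place k Ek} (hr₀ : IsPush S r₀)
    (T : Divisor K E →+ Divisor K E)
    (hTdeg : ∀ Z : Divisor K E, Z ∈ Divisor.degZero (K := K) (F := E) →
      T Z ∈ Divisor.degZero (K := K) (F := E))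
    (hTred : ∀ Z : Divisor K E, Z ∈ Divisor.degZero (K := K) (F := E) →
      T Z ∈ Divisor.degZero (K := K) (F := E) → redDiv r₀ Z = 0 → redDiv r₀ (T Z) = 0)
    {p : ℕ} (hp : p ≠ 0) {X : Divisor K E} (hX : X ∈ Divisor.degZero (K := K) (F := E))
    {h : Ek} (hY : ∀ v : Place k Ek, (p : ℤ) * redDiv r₀ X v = v.ord h)
    {G TG : E} (hG : BmUnit S G) (hGh : S.red G = h) (hTG : BmUnit S TG)
    (hTdiv : ∀ v : Place K E, T (divOf S.hF G) v = v.ord TG)
    (a : ℤ) {cbar : k} {ψ : Ek} (hc : cbar ≠ 0) (hψ : ψ ≠ 0)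
    (hred : S.red TG = algebraMap k Ek cbar * h ^ a * ψ ^ p) :
    redDiv r₀ (T X) = a • redDiv r₀ X + divOf S.hFk ψ := by
  have hh0 : h ≠ 0 := hGh ▸ hG.red_ne_zero
  have hp' : (p : ℤ) ≠ 0 := by exact_mod_cast hp
  have hdivG : divOf S.hF G ∈ Divisor.degZero (K := K) (F := E) := by
    rw [Divisor.mem_degZero, degree_divOf]
  have hZdeg : (p : ℤ) • X - divOf S.hF G ∈ Divisor.degZero (K := K) (F := E) :=
    sub_mem (zsmul_mem hX _) hdivG
  have hTdivG : T (divOf S.hF G) = divOf S.hF TG := by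
    ext v
    rw [hTdiv v, divOf_apply]
  have hZred : redDiv r₀ ((p : ℤ) • X - divOf S.hF G) = 0 := by
    rw [map_sub, map_zsmul, heckeRed_redDiv_divOf hr₀ hG.1 hG.2.1 hG.2.2, hGh]
    ext v
    rw [Finsupp.sub_apply, Finsupp.smul_apply, smul_eq_mul, hY v, divOf_apply, sub_self,
      Finsupp.zero_apply]
  have h1 := hTred _ hZdeg (hTdeg _ hZdeg) hZred
  rw [map_sub, map_zsmul, hTdivG, map_sub, map_zsmul,
    heckeRed_redDiv_divOf hr₀ hTG.1 hTG.2.1 hTG.2.2, hred, sub_eq_zero] at h1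
  ext v
  have h2 := DFunLike.congr_fun h1 v
  rw [Finsupp.smul_apply, smul_eq_mul, divOf_apply] at h2
  have hca : algebraMap k Ek cbar ≠ 0 := by rwa [Ne, map_eq_zero]
  have hha : h ^ a ≠ 0 := zpow_ne_zero _ hh0
  have hψp : ψ ^ p ≠ 0 := pow_ne_zero _ hψ
  rw [v.ord_mul (mul_ne_zero hca hha) hψp, v.ord_mul hca hha, rootClass_ord_algebraMap v hc,
    zero_add, v.ord_zpow, ← zpow_natCast ψ p, v.ord_zpow, ← hY v] at h2
  rw [Finsupp.add_apply, Finsupp.smul_apply, smul_eq_mul, divOf_apply]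
  apply mul_left_cancel₀ hp'
  rw [h2]
  ring

/-- **abstract bridge, class form**. -/
theorem bm_core_class (S : ValSetup K E k Ek) {r₀ : Place K E → Place k Ek}
    (redZ : Divisor.degZero (K := K) (F := E) →+ Divisor.degZero (K := k) (F := Ek))
    (hredZ : ∀ D : Divisor.degZero (K := K) (F := E),
      (redZ D : Divisor k Ek) = redDiv r₀ (D : Divisor K E))
    (T : Divisor K E →+ Divisor K E)
    (TZ : Divisor.degZero (K := K) (F := E) →+ Divisor.degZero (K := K) (F := E))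
    (hTZ : ∀ D : Divisor.degZero (K := K) (F := E), (TZ D : Divisor K E) = T D)
    (X : Divisor.degZero (K := K) (F := E)) (a : ℤ) {ψ : Ek} (hψ : ψ ≠ 0)
    (hmain : redDiv r₀ (T X) = a • redDiv r₀ (X : Divisor K E) + divOf S.hFk ψ) :
    Pic0.mk (redZ (TZ X)) - a • Pic0.mk (redZ X) = 0 := by
  have h1 : Pic0.mk (redZ (TZ X)) - a • Pic0.mk (redZ X) =
      Pic0.mk (redZ (TZ X) - a • redZ X) := by
    have h2 : a • Pic0.mk (redZ X) = Pic0.mk (a • redZ X) :=
      (map_zsmul (QuotientAddGroup.mk' _) a (redZ X)).symm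
    rw [h2]
    rfl
  rw [h1]
  refine (QuotientAddGroup.eq_zero_iff _).mpr ?_
  rw [AddSubgroup.mem_addSubgroupOf]
  refine ⟨ψ, hψ, fun v => ?_⟩
  rw [AddSubgroup.coe_sub, AddSubgroup.coe_zsmul, hredZ, hTZ, hredZ, hmain, add_sub_cancel_left,
    divOf_apply]

end Core

/-! ### the level-`N` computation -/

section Main

variable (D : ALData) [NeZero D.Q] [NeZero D.R] [NeZero (D.Q * D.R)]

/-- **level `N`**: `T_ℓ g = c g^a φ^p` reduces to `c̄ h^a ψ^p`. -/
theorem bm_red_level_N (hQ : D.Q.Prime) (hQR : ¬ D.Q ∣ D.R) (A : ValuationSubring Qb)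
    (hA : A.LiesOverPrime D.Q) (hK : NpfRed D.Q) {ℓ : ℕ} [NeZero ℓ] (hℓ : ℓ.Prime)
    (hℓN : ¬ ℓ ∣ D.Q * D.R) (hℓp : ℓ ≠ D.Q)
    {g : ↥(modularFunctionFieldBar (D.Q * D.R))}
    (hg : BmUnit (gaussSetupBad D hQ hQR A hA) g) (a : ℤ) {c : Qb}
    {φ : ↥(modularFunctionFieldBar (D.Q * D.R))} (hφ : φ ≠ 0)
    (hT : heckeFun Qb (D.Q * D.R) ℓ g =
      algebraMap Qb ↥(modularFunctionFieldBar (D.Q * D.R)) c * g ^ a * φ ^ D.Q) :
    ∃ (cbar : IsLocalRing.ResidueField A)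
      (ψ : ↥(modularFunctionFieldFullC (IsLocalRing.ResidueField A) D.R)),
      cbar ≠ 0 ∧ ψ ≠ 0 ∧
      (gaussSetupBad D hQ hQR A hA).red (heckeFun Qb (D.Q * D.R) ℓ g) =
        algebraMap (IsLocalRing.ResidueField A)
            ↥(modularFunctionFieldFullC (IsLocalRing.ResidueField A) D.R) cbar *
          (gaussSetupBad D hQ hQR A hA).red g ^ a * ψ ^ D.Q := by
  have hSN := isGaussSetup_gaussSetupBad D hQ hQR A hA
  obtain ⟨hTu, -⟩ := bm_heckeFun_unit hK hℓ hℓN hℓp hA (gaussSetupBad D hQ hQR A hA)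
    hSN.mem_iff hSN.coe_red hg
  exact bm_red_of_eq hTu hg a hφ D.Q hT

/-- the two reductions of `T_ℓ` agree: `red_M (T_ℓ G) = red_N (T_ℓ g)` when
`red_M G = red_N g` (both are THE formal norm of the common reduction). -/
theorem bm_hecke_eq (hQ : D.Q.Prime) (hQR : ¬ D.Q ∣ D.R) (A : ValuationSubring Qb)
    (hA : A.LiesOverPrime D.Q) (hK : NpfRed D.Q)
    (hU : FormalNormUnique (IsLocalRing.ResidueField A))
    {ℓ : ℕ} [NeZero ℓ] (hℓ : ℓ.Prime) (hℓN : ¬ ℓ ∣ D.Q * D.R) (hℓM : ¬ ℓ ∣ D.R) (hℓp : ℓ ≠ D.Q)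
    {g : ↥(modularFunctionFieldBar (D.Q * D.R))} {G : ↥(modularFunctionFieldBar D.R)}
    (hg : BmUnit (gaussSetupBad D hQ hQR A hA) g)
    (hG : BmUnit (modularValSetup A D.Q D.R hQ hA hQR) G)
    (hGg : (modularValSetup A D.Q D.R hQ hA hQR).red G = (gaussSetupBad D hQ hQR A hA).red g) :
    (modularValSetup A D.Q D.R hQ hA hQR).red (heckeFun Qb D.R ℓ G) =
      (gaussSetupBad D hQ hQR A hA).red (heckeFun Qb (D.Q * D.R) ℓ g) := by
  have hSN := isGaussSetup_gaussSetupBad D hQ hQR A hA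
  obtain ⟨-, hN⟩ := bm_heckeFun_unit hK hℓ hℓN hℓp hA (gaussSetupBad D hQ hQR A hA)
    hSN.mem_iff hSN.coe_red hg
  obtain ⟨-, hM⟩ := bm_heckeFun_unit hK hℓ hℓM hℓp hA (modularValSetup A D.Q D.R hQ hA hQR)
    (fun f => Iff.rfl) (fun f hf => coe_modularValSetup_red A D.Q D.R hQ hA hQR hf) hG
  rw [hGg] at hM
  exact Subtype.ext (hU ℓ hℓ _ _ _ hM hN)

/-- **divisor step** at level `M = D.R`. -/
theorem bm_divisor_step (hQ : D.Q.Prime) (hQR : ¬ D.Q ∣ D.R) (A : ValuationSubring Qb)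
    (hA : A.LiesOverPrime D.Q) (hin : ReductionInputsModL A D.R)
    {ℓ : ℕ} [NeZero ℓ] [NeZero (D.R * ℓ)] (hℓ : ℓ.Prime) (hℓp : ℓ ≠ D.Q)
    (hα : HeckeAlphaBarIntegral Qb D.R ℓ) (hβ : HeckeBetaBarIntegral Qb D.R ℓ)
    [HasPrincipalDivisors Qb (modularFunctionFieldBar (D.R * ℓ))]
    (hfin : FiniteAlong Qb (heckeAlphaBar Qb D.R ℓ))
    (hFI : FundamentalIdentityAlong Qb (heckeBetaBar Qb D.R ℓ) hβ)
    (hN : NormFormulaAlong Qb (heckeAlphaBar Qb D.R ℓ) hfin)
    {X : Divisor Qb (modularFunctionFieldBar D.R)}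
    (hX : X ∈ Divisor.degZero (K := Qb) (F := modularFunctionFieldBar D.R))
    {h : ↥(modularFunctionFieldFullC (IsLocalRing.ResidueField A) D.R)}
    (hY : ∀ v : Place (IsLocalRing.ResidueField A)
        ↥(modularFunctionFieldFullC (IsLocalRing.ResidueField A) D.R),
      (D.Q : ℤ) * redDiv (placeReductionModL hin) X v = v.ord h)
    {G : ↥(modularFunctionFieldBar D.R)}
    (hG : BmUnit (modularValSetup A D.Q D.R hQ hA hQR) G)
    (hGh : (modularValSetup A D.Q D.R hQ hA hQR).red G = h)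
    (hTG : BmUnit (modularValSetup A D.Q D.R hQ hA hQR) (heckeFun Qb D.R ℓ G))
    (a : ℤ) {cbar : IsLocalRing.ResidueField A}
    {ψ : ↥(modularFunctionFieldFullC (IsLocalRing.ResidueField A) D.R)}
    (hc : cbar ≠ 0) (hψ : ψ ≠ 0)
    (hred : (modularValSetup A D.Q D.R hQ hA hQR).red (heckeFun Qb D.R ℓ G) =
      algebraMap (IsLocalRing.ResidueField A)
          ↥(modularFunctionFieldFullC (IsLocalRing.ResidueField A) D.R) cbar * h ^ a * ψ ^ D.Q) :
    redDiv (placeReductionModL hin)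
        (Divisor.correspondence (heckeBetaBar Qb D.R ℓ) (heckeAlphaBar Qb D.R ℓ) hβ hα X) =
      a • redDiv (placeReductionModL hin) X +
        divOf (modularValSetup A D.Q D.R hQ hA hQR).hFk ψ := by
  classical
  haveI : NeZero (heckeRedTop D.Q D.R ℓ) := ⟨heckeRedTop_ne_zero D.Q D.R ℓ⟩
  have hℓM' : ¬ D.Q ∣ heckeRedTop D.Q D.R ℓ := heckeRedTop_not_dvd hQ hℓ hQR hℓp
  have hgen := Fermat.Agent.GenusEq.genusFF_eq (heckeRedTop D.Q D.R ℓ)
    (heckeRedTop_four_or_nine D.Q D.R ℓ) D.Q hQ hℓM' A hA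
  have hr₀ : IsPush (modularValSetup A D.Q D.R hQ hA hQR) (placeReductionModL hin) :=
    heckeRed_isPush_of_isPlaceReduction A D.Q D.R hQ hA hQR
      (isPlaceReductionModL_placeReductionModL hin)
  refine bm_core (modularValSetup A D.Q D.R hQ hA hQR) hr₀
    (Divisor.correspondence (heckeBetaBar Qb D.R ℓ) (heckeAlphaBar Qb D.R ℓ) hβ hα)
    (fun Z hZ => Divisor.correspondence_mem_degZero _ _ hβ hα hFI hZ)
    (fun Z hZ hTZ hZ0 => heckeRed_divisor D.R A D.Q hQ hA hQR ℓ (heckeRedTop D.Q D.R ℓ) hℓM'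
      (heckeRedTop_dvd D.Q D.R ℓ) (heckeRedTop_dvd' D.Q D.R ℓ) hgen hα hβ hr₀ hZ hTZ hZ0)
    hQ.ne_zero hX hY hG hGh hTG ?_ a hc hψ hred
  intro v
  exact correspondence_apply_eq_ord_norm (heckeBetaBar Qb D.R ℓ) (heckeAlphaBar Qb D.R ℓ) hβ hα
    hfin hN hG.2.2 (fun w => divOf_apply _ G w) v

set_option maxHeartbeats 1600000 in
/-- **class step** at level `M = D.R`. -/
theorem bm_class_step (hQ : D.Q.Prime) (hQR : ¬ D.Q ∣ D.R) (A : ValuationSubring Qb)
    (hA : A.LiesOverPrime D.Q) (hin : ReductionInputsModL A D.R)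
    (ℓ : Nat.Primes) (hℓp : (ℓ : ℕ) ≠ D.Q)
    (X : Divisor.degZero (K := Qb) (F := modularFunctionFieldBar D.R))
    {h : ↥(modularFunctionFieldFullC (IsLocalRing.ResidueField A) D.R)}
    (hY : ∀ v : Place (IsLocalRing.ResidueField A)
        ↥(modularFunctionFieldFullC (IsLocalRing.ResidueField A) D.R),
      (D.Q : ℤ) * redDiv (placeReductionModL hin)
        (X : Divisor Qb (modularFunctionFieldBar D.R)) v = v.ord h)
    {G : ↥(modularFunctionFieldBar D.R)}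
    (hG : BmUnit (modularValSetup A D.Q D.R hQ hA hQR) G)
    (hGh : (modularValSetup A D.Q D.R hQ hA hQR).red G = h)
    (hTG : haveI : NeZero (ℓ : ℕ) := ⟨ℓ.2.ne_zero⟩
      BmUnit (modularValSetup A D.Q D.R hQ hA hQR) (heckeFun Qb D.R (ℓ : ℕ) G))
    (a : ℤ) {cbar : IsLocalRing.ResidueField A}
    {ψ : ↥(modularFunctionFieldFullC (IsLocalRing.ResidueField A) D.R)}
    (hc : cbar ≠ 0) (hψ : ψ ≠ 0)
    (hred : haveI : NeZero (ℓ : ℕ) := ⟨ℓ.2.ne_zero⟩
      (modularValSetup A D.Q D.R hQ hA hQR).red (heckeFun Qb D.R (ℓ : ℕ) G) =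
      algebraMap (IsLocalRing.ResidueField A)
          ↥(modularFunctionFieldFullC (IsLocalRing.ResidueField A) D.R) cbar * h ^ a * ψ ^ D.Q) :
    reductionModL A D.R (heckeOperatorBar D.R ℓ (Pic0.mk X) - a • Pic0.mk X) = 0 := by
  classical
  haveI : NeZero (ℓ : ℕ) := ⟨ℓ.2.ne_zero⟩
  haveI : NeZero (D.R * (ℓ : ℕ)) := ⟨Nat.mul_ne_zero (NeZero.ne D.R) (NeZero.ne (ℓ : ℕ))⟩
  obtain ⟨hα, hβ, hP, hfin, hFI, hN⟩ :=
    Fermat.Agent.HeckeInputs.hi_heckeInputsAlong_Qbar D.R (ℓ : ℕ)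
  haveI := hP
  have hmain := bm_divisor_step D hQ hQR A hA hin ℓ.2 hℓp hα hβ hfin hFI hN X.2 hY hG hGh hTG
    a hc hψ hred
  rw [map_sub, map_zsmul, heckeOperatorBar_apply, heckeOperatorAlong_eq hα hβ hFI hfin hN]
  show reductionModL A D.R (Pic0.mk (Pic0.degZeroCorrespondence (heckeBetaBar Qb D.R (ℓ : ℕ))
    (heckeAlphaBar Qb D.R (ℓ : ℕ)) hβ hα hFI X)) - a • reductionModL A D.R (Pic0.mk X) = 0
  rw [reductionModL_mk hin, reductionModL_mk hin]
  exact bm_core_class (modularValSetup A D.Q D.R hQ hA hQR) (r₀ := placeReductionModL hin)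
    (reductionDegZeroAlong (placeReductionModL hin)
      (isPlaceReductionModL_placeReductionModL hin).1) (fun _ => rfl)
    (Divisor.correspondence (heckeBetaBar Qb D.R (ℓ : ℕ)) (heckeAlphaBar Qb D.R (ℓ : ℕ)) hβ hα)
    (Pic0.degZeroCorrespondence (heckeBetaBar Qb D.R (ℓ : ℕ)) (heckeAlphaBar Qb D.R (ℓ : ℕ))
      hβ hα hFI) (fun _ => rfl) X a hψ hmain

/-- **(BRIDGE), level-`M` side**: `BridgeInput → RetInput`, from `NpfRed` and the uniqueness of
the formal norm. -/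
theorem bridge_of (hQ : D.Q.Prime) (hQR : ¬ D.Q ∣ D.R) (A : ValuationSubring Qb)
    (hA : A.LiesOverPrime D.Q) (hK : NpfRed D.Q)
    (hU : FormalNormUnique (IsLocalRing.ResidueField A))
    (S : Finset ℕ) (hpS : D.Q ∈ S) (hNS : ∀ q : ℕ, q.Prime → q ∣ D.Q * D.R → q ∈ S)
    (a : ℕ → ℤ) (hB : BridgeInput D S A a) : RetInput D.Q D.R S A a := by
  classical
  obtain ⟨g, h, hgmem, hhg, hh0, hdiv, hnpow, hT⟩ := hB
  have hSN := isGaussSetup_gaussSetupBad D hQ hQR A hA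
  have hin : ReductionInputsModL A D.R :=
    Fermat.Agent.ES15.reductionInputsModL A D.Q D.R hQ hA hQR
  haveI := isAlgClosed_residue A
  haveI : HasPrincipalDivisors (IsLocalRing.ResidueField A)
      ↥(modularFunctionFieldFullC (IsLocalRing.ResidueField A) D.R) :=
    hasPD (modularValSetup A D.Q D.R hQ hA hQR).hFk
  -- `g` is a unit with reduction `h`
  have hgOv : g ∈ (gaussSetupBad D hQ hQR A hA).Ov := (hSN.mem_iff g).mpr hgmem
  have hgred : (gaussSetupBad D hQ hQR A hA).red g = h :=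
    Subtype.ext (by rw [hSN.coe_red g hgOv, hhg])
  have hgu : BmUnit (gaussSetupBad D hQ hQR A hA) g :=
    bmUnit_of_red_ne_zero (by rw [hgred]; exact hh0)
  -- the divisor `Ȳ = (1/p) div h`, a lift `X`, a lift `G` of `h`
  obtain ⟨Ybar, hYbar⟩ := exists_isRootDiv hQ.pos hh0 hdiv
  obtain ⟨X, hX⟩ := exists_degZero_lift A D.Q D.R hQ hA hQR hin Ybar
  obtain ⟨G, hGmem, hGinv, hG0, hGred⟩ :=
    heckeRed_exists_lift (modularValSetup A D.Q D.R hQ hA hQR) hh0
  have hGu : BmUnit (modularValSetup A D.Q D.R hQ hA hQR) G := ⟨hGmem, hGinv, hG0⟩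
  have hXY : redDiv (placeReductionModL hin) (X : Divisor Qb (modularFunctionFieldBar D.R)) =
      (Ybar : Divisor (IsLocalRing.ResidueField A)
        ↥(modularFunctionFieldFullC (IsLocalRing.ResidueField A) D.R)) := by
    rw [← hX]
    rfl
  have hY : ∀ v : Place (IsLocalRing.ResidueField A)
      ↥(modularFunctionFieldFullC (IsLocalRing.ResidueField A) D.R),
      (D.Q : ℤ) * redDiv (placeReductionModL hin)
        (X : Divisor Qb (modularFunctionFieldBar D.R)) v = v.ord h := by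
    intro v
    rw [hXY]
    exact hYbar.2 v
  refine ⟨Pic0.mk X, ?_, ?_, ?_⟩
  · rw [reductionModL_mk hin, hX]
    exact bm_mk_ne_zero (modularValSetup A D.Q D.R hQ hA hQR).hFk hQ.pos hYbar hnpow
  · rw [reductionModL_mk hin, hX]
    have h1 := hYbar.nsmul_mk_eq_zero
    rwa [natCast_zsmul] at h1
  · intro ℓ hℓS
    haveI : NeZero (ℓ : ℕ) := ⟨ℓ.2.ne_zero⟩
    have hℓp : (ℓ : ℕ) ≠ D.Q := fun h => hℓS (h ▸ hpS)
    have hℓN : ¬ (ℓ : ℕ) ∣ D.Q * D.R := fun h => hℓS (hNS ℓ ℓ.2 h)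
    have hℓM : ¬ (ℓ : ℕ) ∣ D.R := fun h => hℓN (Dvd.dvd.mul_left h _)
    obtain ⟨c, φ, hc, hφ, hTg⟩ := hT ℓ hℓS
    obtain ⟨cbar, ψ, hcbar, hψ, hred⟩ :=
      bm_red_level_N D hQ hQR A hA hK ℓ.2 hℓN hℓp hgu (a ℓ) hφ hTg
    have hTGu := (bm_heckeFun_unit hK ℓ.2 hℓM hℓp hA (modularValSetup A D.Q D.R hQ hA hQR)
      (fun f => Iff.rfl) (fun f hf => coe_modularValSetup_red A D.Q D.R hQ hA hQR hf) hGu).1
    have hEq := bm_hecke_eq D hQ hQR A hA hK hU ℓ.2 hℓN hℓM hℓp hgu hGu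
      (hGred.trans hgred.symm)
    rw [hgred] at hred
    exact bm_class_step D hQ hQR A hA hin ℓ hℓp X hY hGu hGred hTGu (a ℓ) hcbar hψ
      (hEq.trans hred)

end Main

end Fermat.Agent.R38Ret
end
end MergeWrap_R38_Ret_BridgeM

section MergeWrap_R38_Ret_FormalNorm -- from R38/Ret/FormalNorm.lean

/-!
# Row 38, block R, seat R-6b3: algebra of the formal Hecke norm  (helper98)

`IsFormalNorm ℓ w W` : `W(q^ℓ) = w(q^{ℓ²}) ∏_{b<ℓ} w(ζ^b q)` for SOME primitive `ℓ`-th root of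
unity `ζ` of `k`.  The product does not depend on `ζ` (`fnorm_prod_scaleL_pow_eq`), hence:

* `IsFormalNorm.unique` : `W` is determined by `w`;
* `IsFormalNorm.eq_of_isPrimitiveRoot` : the formula holds for EVERY primitive root;
* `IsFormalNorm.one/mul/inv/div/pow/zpow/prod` : multiplicativity;
* `IsFormalNorm.const` : the formal norm of a constant `c` is `c ^ (ℓ + 1)`;
* `IsFormalNorm.ne_zero`, `IsFormalNorm.eq_zero_iff`.
-/

set_option autoImplicit false

noncomputable section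

namespace Fermat.Agent.R38Ret

open ModularCurve HahnSeries Fermat.Agent.Kronecker

variable {k : Type*} [Field k] {ℓ : ℕ} [NeZero ℓ]

/-- `∏_{b<ℓ} f (ζ^b)` does not depend on the primitive `ℓ`-th root of unity `ζ` of a field. -/
theorem fnorm_prod_pow_eq {M : Type*} [CommMonoid M] {ζ ζ' : kˣ}
    (hζ : IsPrimitiveRoot ζ ℓ) (hζ' : IsPrimitiveRoot ζ' ℓ) (f : kˣ → M) :
    ∏ b ∈ Finset.range ℓ, f (ζ ^ b) = ∏ b ∈ Finset.range ℓ, f (ζ' ^ b) := by
  classical
  have hinj : ∀ {ξ : kˣ}, IsPrimitiveRoot ξ ℓ →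
      Set.InjOn (fun b : ℕ => ξ ^ b) (Finset.range ℓ : Set ℕ) := by
    intro ξ hξ i hi j hj hij
    exact hξ.pow_inj (Finset.mem_range.mp hi) (Finset.mem_range.mp hj) hij
  have himg : (Finset.range ℓ).image (fun b : ℕ => ζ' ^ b) =
      (Finset.range ℓ).image (fun b : ℕ => ζ ^ b) := by
    apply Finset.eq_of_subset_of_card_le
    · intro x hx
      obtain ⟨b, -, rfl⟩ := Finset.mem_image.mp hx
      have hmem : ζ' ^ b ∈ rootsOfUnity ℓ k := by
        rw [mem_rootsOfUnity, ← pow_mul, mul_comm, pow_mul, hζ'.pow_eq_one, one_pow]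
      obtain ⟨i, hi, hi'⟩ := hζ.eq_pow_of_mem_rootsOfUnity hmem
      exact Finset.mem_image.mpr ⟨i, Finset.mem_range.mpr hi, hi'⟩
    · rw [Finset.card_image_of_injOn (hinj hζ), Finset.card_image_of_injOn (hinj hζ')]
  rw [← Finset.prod_image (f := f) (hinj hζ), ← Finset.prod_image (f := f) (hinj hζ'), himg]

/-- The product of the conjugates `w(ζ^b q)` does not depend on the primitive root `ζ`. -/
theorem fnorm_prod_scaleL_pow_eq {ζ ζ' : kˣ} (hζ : IsPrimitiveRoot ζ ℓ) (hζ' : IsPrimitiveRoot ζ' ℓ)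
    (w : LaurentSeries k) :
    ∏ b ∈ Finset.range ℓ, scaleL (ζ ^ b) w = ∏ b ∈ Finset.range ℓ, scaleL (ζ' ^ b) w :=
  fnorm_prod_pow_eq hζ hζ' (fun z => scaleL z w)

theorem fnorm_scaleL_C (z : kˣ) (c : k) : scaleL z (HahnSeries.C c : LaurentSeries k) = HahnSeries.C c := by
  ext n
  rw [scaleL_coeff, HahnSeries.C_apply, HahnSeries.coeff_single]
  split_ifs with h
  · subst h; simp
  · simp

/-- The formula of `IsFormalNorm` holds for EVERY primitive `ℓ`-th root of unity. -/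
theorem IsFormalNorm.eq_of_isPrimitiveRoot {w W : LaurentSeries k} (h : IsFormalNorm ℓ w W)
    {ζ : kˣ} (hζ : IsPrimitiveRoot ζ ℓ) :
    qExpand k ℓ W = qExpand k (ℓ * ℓ) w * ∏ b ∈ Finset.range ℓ, scaleL (ζ ^ b) w := by
  obtain ⟨ζ', hζ', h'⟩ := h
  rw [h', fnorm_prod_scaleL_pow_eq hζ' hζ]

theorem isFormalNorm_of_isPrimitiveRoot {w W : LaurentSeries k} {ζ : kˣ}
    (hζ : IsPrimitiveRoot ζ ℓ)
    (h : qExpand k ℓ W = qExpand k (ℓ * ℓ) w * ∏ b ∈ Finset.range ℓ, scaleL (ζ ^ b) w) :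
    IsFormalNorm ℓ w W := ⟨ζ, hζ, h⟩

/-- A primitive `ℓ`-th root of unity exists as soon as some formal norm exists. -/
theorem IsFormalNorm.exists_isPrimitiveRoot {w W : LaurentSeries k} (h : IsFormalNorm ℓ w W) :
    ∃ ζ : kˣ, IsPrimitiveRoot ζ ℓ := by
  obtain ⟨ζ, hζ, -⟩ := h
  exact ⟨ζ, hζ⟩

/-- **Uniqueness of the formal norm** (no hypothesis on `ℓ`). -/
theorem IsFormalNorm.unique' {w W W' : LaurentSeries k}
    (h : IsFormalNorm ℓ w W) (h' : IsFormalNorm ℓ w W') : W = W' := by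
  obtain ⟨ζ, hζ, hW⟩ := h
  have hW' := h'.eq_of_isPrimitiveRoot hζ
  exact qExpand_injective (R := k) ℓ (hW.trans hW'.symm)

/-- **Uniqueness of the formal norm**. -/
theorem IsFormalNorm.unique (_hℓ : ℓ.Prime) {w W W' : LaurentSeries k}
    (h : IsFormalNorm ℓ w W) (h' : IsFormalNorm ℓ w W') : W = W' :=
  h.unique' h'

theorem IsFormalNorm.congr {w w' W W' : LaurentSeries k} (h : IsFormalNorm ℓ w W)
    (hw : w = w') (hW : W = W') : IsFormalNorm ℓ w' W' := by
  subst hw; subst hW; exact h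

theorem isFormalNorm_one {ζ : kˣ} (hζ : IsPrimitiveRoot ζ ℓ) :
    IsFormalNorm ℓ (1 : LaurentSeries k) 1 := by
  refine ⟨ζ, hζ, ?_⟩
  simp only [map_one, Finset.prod_const_one, mul_one]

theorem isFormalNorm_zero {ζ : kˣ} (hζ : IsPrimitiveRoot ζ ℓ) :
    IsFormalNorm ℓ (0 : LaurentSeries k) 0 := by
  refine ⟨ζ, hζ, ?_⟩
  simp only [map_zero, zero_mul]

theorem IsFormalNorm.mul {w₁ w₂ W₁ W₂ : LaurentSeries k}
    (h₁ : IsFormalNorm ℓ w₁ W₁) (h₂ : IsFormalNorm ℓ w₂ W₂) :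
    IsFormalNorm ℓ (w₁ * w₂) (W₁ * W₂) := by
  obtain ⟨ζ, hζ, hW₁⟩ := h₁
  have hW₂ := h₂.eq_of_isPrimitiveRoot hζ
  refine ⟨ζ, hζ, ?_⟩
  simp only [map_mul, Finset.prod_mul_distrib, hW₁, hW₂]
  ring

theorem IsFormalNorm.inv {w W : LaurentSeries k} (h : IsFormalNorm ℓ w W) :
    IsFormalNorm ℓ w⁻¹ W⁻¹ := by
  obtain ⟨ζ, hζ, hW⟩ := h
  refine ⟨ζ, hζ, ?_⟩
  simp only [map_inv₀, Finset.prod_inv_distrib, hW, mul_inv]

theorem IsFormalNorm.div {w₁ w₂ W₁ W₂ : LaurentSeries k}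
    (h₁ : IsFormalNorm ℓ w₁ W₁) (h₂ : IsFormalNorm ℓ w₂ W₂) :
    IsFormalNorm ℓ (w₁ / w₂) (W₁ / W₂) := by
  rw [div_eq_mul_inv, div_eq_mul_inv]
  exact h₁.mul h₂.inv

theorem IsFormalNorm.pow {w W : LaurentSeries k} (h : IsFormalNorm ℓ w W) (n : ℕ) :
    IsFormalNorm ℓ (w ^ n) (W ^ n) := by
  obtain ⟨ζ, hζ, hW⟩ := h
  refine ⟨ζ, hζ, ?_⟩
  simp only [map_pow, Finset.prod_pow, hW, mul_pow]

theorem IsFormalNorm.zpow {w W : LaurentSeries k} (h : IsFormalNorm ℓ w W) (n : ℤ) :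
    IsFormalNorm ℓ (w ^ n) (W ^ n) := by
  obtain ⟨ζ, hζ, hW⟩ := h
  refine ⟨ζ, hζ, ?_⟩
  simp only [map_zpow₀, Finset.prod_zpow, hW, mul_zpow]

theorem IsFormalNorm.prod {ι : Type*} (s : Finset ι) {w W : ι → LaurentSeries k}
    {ζ : kˣ} (hζ : IsPrimitiveRoot ζ ℓ)
    (h : ∀ i ∈ s, IsFormalNorm ℓ (w i) (W i)) :
    IsFormalNorm ℓ (∏ i ∈ s, w i) (∏ i ∈ s, W i) := by
  classical
  induction s using Finset.induction_on with
  | empty => simpa using isFormalNorm_one hζ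
  | insert a s ha ih =>
    rw [Finset.prod_insert ha, Finset.prod_insert ha]
    exact (h a (Finset.mem_insert_self a s)).mul
      (ih fun i hi => h i (Finset.mem_insert_of_mem hi))

/-- The formal norm of a constant `c` is `c ^ (ℓ + 1)`. -/
theorem IsFormalNorm.const {ζ : kˣ} (hζ : IsPrimitiveRoot ζ ℓ) (c : k) :
    IsFormalNorm ℓ (HahnSeries.C c : LaurentSeries k) (HahnSeries.C (c ^ (ℓ + 1))) := by
  refine ⟨ζ, hζ, ?_⟩
  simp only [qExpand_C, fnorm_scaleL_C, Finset.prod_const, Finset.card_range]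
  rw [← pow_succ', map_pow]

/-- `algebraMap` form of `IsFormalNorm.const`. -/
theorem IsFormalNorm.const_algebraMap {ζ : kˣ} (hζ : IsPrimitiveRoot ζ ℓ) (c : k) :
    IsFormalNorm ℓ (algebraMap k (LaurentSeries k) c)
      (algebraMap k (LaurentSeries k) (c ^ (ℓ + 1))) := by
  have h := IsFormalNorm.const hζ c
  have e : ∀ x : k, algebraMap k (LaurentSeries k) x = (HahnSeries.C x : LaurentSeries k) := by
    intro x
    have h1 : algebraMap k (PowerSeries k) x = PowerSeries.C x := by simp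
    rw [HahnSeries.algebraMap_apply', h1, HahnSeries.ofPowerSeries_C]
  rwa [← e, ← e] at h

/-- The formal norm of a constant multiple. -/
theorem IsFormalNorm.const_mul {w W : LaurentSeries k} (h : IsFormalNorm ℓ w W) (c : k) :
    IsFormalNorm ℓ (HahnSeries.C c * w) (HahnSeries.C (c ^ (ℓ + 1)) * W) := by
  obtain ⟨ζ, hζ⟩ := h.exists_isPrimitiveRoot
  exact (IsFormalNorm.const hζ c).mul h

theorem IsFormalNorm.eq_zero_iff {w W : LaurentSeries k} (h : IsFormalNorm ℓ w W) :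
    W = 0 ↔ w = 0 := by
  obtain ⟨ζ, hζ, hW⟩ := h
  constructor
  · intro hW0
    by_contra hw
    rw [hW0, map_zero] at hW
    have h1 : qExpand k (ℓ * ℓ) w ≠ 0 := fun h0 =>
      hw (qExpand_injective (R := k) (ℓ * ℓ) (h0.trans (map_zero _).symm))
    have h2 : ∏ b ∈ Finset.range ℓ, scaleL (ζ ^ b) w ≠ 0 := by
      rw [Finset.prod_ne_zero_iff]
      intro b _ h0
      exact hw ((map_eq_zero (scaleL (ζ ^ b))).mp h0)
    exact mul_ne_zero h1 h2 hW.symm
  · intro hw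
    subst hw
    rw [map_zero, zero_mul] at hW
    exact qExpand_injective (R := k) ℓ (hW.trans (map_zero _).symm)

theorem IsFormalNorm.ne_zero {w W : LaurentSeries k} (h : IsFormalNorm ℓ w W) (hw : w ≠ 0) :
    W ≠ 0 := fun hW => hw (h.eq_zero_iff.mp hW)

end Fermat.Agent.R38Ret
end
end MergeWrap_R38_Ret_FormalNorm

section MergeWrap_R38_Ret_BridgeFinal -- from R38/Ret/BridgeFinal.lean

/-!
# Row 38 (target S44), block R, seat R-6b (helper76): the junction `SpJR6b`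

`spJR6b : Fermat.Agent.R38.SpJR6b`, i.e. `BridgeStatement D S` for every `D`, `S`:
`bridge_of` (file `BridgeM.lean`) with `hK := npfRed` (seat R-6k, helper84) and
`hU := IsFormalNorm.unique` (seat R-6b3, helper98); the lift of divisors (seat R-6b1,
helper17) is used inside `bridge_of`.
-/

set_option autoImplicit false
set_option synthInstance.maxHeartbeats 400000

noncomputable section

namespace Fermat.Agent.R38Ret

open ModularCurve AlgebraicCurve HahnSeries Fermat.Agent.AtkinLehner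

/-- (R-6b3) the formal norm is unique, over every field. -/
theorem formalNormUnique (k : Type*) [Field k] : FormalNormUnique k :=
  fun _ _ hℓ _ _ _ h h' => IsFormalNorm.unique hℓ h h'

/-- **(BRIDGE), level-`M` side**: the deliverable of seat R-6b. -/
theorem bridgeStatement (D : ALData) [NeZero D.Q] [NeZero D.R] [NeZero (D.Q * D.R)]
    (hQ : D.Q.Prime) (hQR : ¬ D.Q ∣ D.R) (S : Finset ℕ) (hpS : D.Q ∈ S)
    (hNS : ∀ q : ℕ, q.Prime → q ∣ D.Q * D.R → q ∈ S) : BridgeStatement D S :=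
  fun A hA a hB =>
    bridge_of D hQ hQR A hA (npfRed D.Q hQ) (formalNormUnique _) S hpS hNS a hB

/-- **J-R6b**. -/
theorem spJR6b : Fermat.Agent.R38.SpJR6b :=
  fun D _ _ _ hQ _ hQR S hpS hNS => bridgeStatement D hQ hQR S hpS hNS

end Fermat.Agent.R38Ret
end
end MergeWrap_R38_Ret_BridgeFinal
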