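import Mathlib
import Fermat.Agent.MUL.Orig.F3.I2.RootClass
import Fermat.Agent.MUL.Lib.HeckeInputs.Qbar
import Fermat.Agent.MUL.Lib.BadRed.Bridge.NormRel
import Fermat.Agent.MUL.Lib.GaussInt.FrobPowAsm
import Fermat.Agent.MUL.Lib.BadRed.Bridge.AuxNew
import Fermat.Agent.MUL.R38.SpineDefs
import Fermat.Agent.MUL.R38.Ret.BridgeDefs
import Fermat.Agent.MUL.R38.Spine
import Fermat.Agent.MUL.R38.Ret.BridgeFinal

section MergeWrap_R38_Ret_BridgeNCore -- from R38/Ret/BridgeNCore.lean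

set_option autoImplicit false
set_option linter.unusedSectionVars false

noncomputable section

namespace Fermat.Agent.R38Ret

open ModularCurve AlgebraicCurve Fermat.Agent.F3 Fermat.Agent.F3G Fermat.Agent.F3I2

local notation "Qb" => AlgebraicClosure ℚ

section Core

variable {N : ℕ} [NeZero N]

/-- the order of a `zpow`. -/
theorem bn_ord_zpow (v : Place Qb (FBar N)) (x : FBar N) (a : ℤ) :
    v.ord (x ^ a) = a * v.ord x := v.ord_zpow x a

/-- the order of a `pow`. -/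
theorem bn_ord_pow (v : Place Qb (FBar N)) (x : FBar N) (n : ℕ) :
    v.ord (x ^ n) = (n : ℤ) * v.ord x := by
  rw [← zpow_natCast, v.ord_zpow]

/-- **CORE of R-6a**: the Hecke relation on Kummer generators. -/
theorem exists_heckeFun_eq (ℓ : ℕ) [NeZero ℓ] (hℓ : ℓ.Prime) (p : ℕ) (a : ℤ) (g : FBar N)
    (E : Divisor.degZero (K := Qb) (F := FBar N)) (hR : IsRootDiv p g E)
    (hT : heckeOperatorBar N ⟨ℓ, hℓ⟩ (Pic0.mk E) = a • Pic0.mk E) :
    ∃ (c : Qb) (φ : FBar N), c ≠ 0 ∧ φ ≠ 0 ∧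
      heckeFun Qb N ℓ g = algebraMap Qb (FBar N) c * g ^ a * φ ^ p := by
  have hin : HeckeInputsAlong Qb N ℓ := Fermat.Agent.HeckeInputs.hi_heckeInputsAlong_Qbar N ℓ
  obtain ⟨E', hE', hR'⟩ := IsRootDiv.hecke hin hR
  have hT' : heckeOperatorAlong Qb N ℓ (Pic0.mk E) = a • Pic0.mk E := hT
  -- `E' - a • E` is principal
  have h0 : Pic0.mk (E' - a • E) = 0 := by
    have h1 : Pic0.mk (E' - a • E) = Pic0.mk E' - a • Pic0.mk E := by
      show QuotientAddGroup.mk' _ (E' - a • E) = _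
      rw [map_sub, map_zsmul]
      rfl
    rw [h1, ← hE', hT', sub_self]
  have h2 : (E' - a • E : Divisor.degZero (K := Qb) (F := FBar N)) ∈
      (Divisor.principal (K := Qb) (F := FBar N)).addSubgroupOf
        (Divisor.degZero (K := Qb) (F := FBar N)) :=
    (QuotientAddGroup.eq_zero_iff _).mp h0
  obtain ⟨φ, hφ, hφv⟩ := h2
  have hg : g ≠ 0 := hR.1
  have hTg : heckeFun Qb N ℓ g ≠ 0 := hR'.1
  have hga : g ^ a ≠ 0 := zpow_ne_zero a hg
  have hφp : φ ^ p ≠ 0 := pow_ne_zero p hφ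
  -- the quotient has no zeros and no poles
  set ψ : FBar N := heckeFun Qb N ℓ g * (g ^ a * φ ^ p)⁻¹ with hψ
  have hψ0 : ψ ≠ 0 := mul_ne_zero hTg (inv_ne_zero (mul_ne_zero hga hφp))
  have hord : ∀ v : Place Qb (FBar N), v.ord ψ = 0 := by
    intro v
    have e1 : v.ord (heckeFun Qb N ℓ g) = (p : ℤ) * (E' : Divisor Qb (FBar N)) v := (hR'.2 v).symm
    have e2 : v.ord g = (p : ℤ) * (E : Divisor Qb (FBar N)) v := (hR.2 v).symm
    have e3 : ((E' - a • E : Divisor.degZero (K := Qb) (F := FBar N)) : Divisor Qb (FBar N)) v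
        = v.ord φ := hφv v
    have e4 : ((E' - a • E : Divisor.degZero (K := Qb) (F := FBar N)) : Divisor Qb (FBar N)) v
        = (E' : Divisor Qb (FBar N)) v - a * (E : Divisor Qb (FBar N)) v := by
      rw [AddSubgroup.coe_sub, AddSubgroup.coe_zsmul, Finsupp.sub_apply, Finsupp.smul_apply,
        smul_eq_mul]
    rw [hψ, v.ord_mul hTg (inv_ne_zero (mul_ne_zero hga hφp)), v.ord_inv,
      v.ord_mul hga hφp, bn_ord_zpow, bn_ord_pow, e1, e2, ← e3, e4]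
    ring
  obtain ⟨c, hc, hcψ⟩ := Fermat.Agent.BadRed.normRel_const_of_ord_eq_zero N hψ0 hord
  refine ⟨c, φ, hc, hφ, ?_⟩
  rw [← hcψ, hψ, mul_assoc, inv_mul_cancel_right₀ (mul_ne_zero hga hφp)]

/-- the Hecke relation for `g / c₀`. -/
theorem exists_heckeFun_div_const_eq (ℓ : ℕ) [NeZero ℓ] (hℓ : ℓ.Prime) (p : ℕ) (a : ℤ)
    (g : FBar N) (E : Divisor.degZero (K := Qb) (F := FBar N)) (hR : IsRootDiv p g E)
    (hT : heckeOperatorBar N ⟨ℓ, hℓ⟩ (Pic0.mk E) = a • Pic0.mk E) (c₀ : Qb) (hc₀ : c₀ ≠ 0) :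
    ∃ (c : Qb) (φ : FBar N), c ≠ 0 ∧ φ ≠ 0 ∧
      heckeFun Qb N ℓ (g / algebraMap Qb (FBar N) c₀) =
        algebraMap Qb (FBar N) c * (g / algebraMap Qb (FBar N) c₀) ^ a * φ ^ p := by
  have hc₀' : c₀⁻¹ ≠ 0 := inv_ne_zero hc₀
  have hR₀ : IsRootDiv p (algebraMap Qb (FBar N) c₀⁻¹ * g) E := hR.const_mul hc₀'
  have e : g / algebraMap Qb (FBar N) c₀ = algebraMap Qb (FBar N) c₀⁻¹ * g := by
    rw [map_inv₀, div_eq_mul_inv, mul_comm]
  rw [e]
  exact exists_heckeFun_eq ℓ hℓ p a _ E hR₀ hT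

end Core

end Fermat.Agent.R38Ret
end
end MergeWrap_R38_Ret_BridgeNCore

section MergeWrap_R38_Ret_BridgeNAL -- from R38/Ret/BridgeNAL.lean

set_option autoImplicit false
set_option linter.unusedSectionVars false
set_option linter.style.haveILetI false

noncomputable section

namespace Fermat.Agent.R38Ret

open ModularCurve AlgebraicCurve Fermat.Agent.F3 Fermat.Agent.F3G Fermat.Agent.GaussInt
  Fermat.Agent.AtkinLehner Fermat.Agent.Kronecker Fermat.Agent.BadRed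

local notation "Qb" => AlgebraicClosure ℚ

section Generic

variable {K F F' : Type*} [Field K] [Field F] [Field F'] [Algebra K F] [Algebra K F']

/-- the norm along `ψ` commutes with a pair of automorphisms compatible with `ψ`. -/
theorem bn_normAlong_equiv_equiv (ψ : F →ₐ[K] F') (τ : F ≃ₐ[K] F) (σ : F' ≃ₐ[K] F')
    (h : ∀ x, σ (ψ x) = ψ (τ x)) (y : F') :
    normAlong ψ (σ y) = τ (normAlong ψ y) := by
  letI a1 : Algebra F F' := algebraAlong ψ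
  have he : RingHom.comp (algebraMap F F') (τ.toRingEquiv : F →+* F) =
      RingHom.comp (σ.toRingEquiv : F' →+* F') (algebraMap F F') := by
    ext x
    exact (h x).symm
  have h1 := Algebra.norm_eq_of_equiv_equiv τ.toRingEquiv σ.toRingEquiv he y
  show Algebra.norm F (σ y) = τ (Algebra.norm F y)
  rw [h1]
  exact (τ.toRingEquiv.apply_symm_apply _).symm

end Generic

section Compat

set_option synthInstance.maxHeartbeats 400000
set_option maxHeartbeats 1000000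

/-- **compatibility of the Atkin–Lehner involutions `w_Q` at the levels `M = Q R` and
`M ℓ = Q (R ℓ)` with `β_ℓ`** (on expansions). -/
theorem bn_coe_wAt_heckeBetaBar (D D' : ALData) {M ℓ : ℕ} [NeZero M] [NeZero ℓ]
    (hM : M = D.Q * D.R) (hM' : M * ℓ = D'.Q * D'.R) (hQ : D'.Q = D.Q) (hR : D'.R = D.R * ℓ)
    (x : FBar M) :
    ((wAt D' hM' (heckeBetaBar Qb M ℓ x) : FBar (M * ℓ)) : LaurentSeries Qb) =
      qExpand Qb ℓ ((wAt D hM x : FBar M) : LaurentSeries Qb) := by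
  set Φ₁ : FBar M →+* LaurentSeries Qb :=
    ((modularFunctionFieldBar (M * ℓ)).val.toRingHom.comp
      ((wAt D' hM').toAlgHom.toRingHom.comp (heckeBetaBar Qb M ℓ).toRingHom)) with hΦ₁
  set Φ₂ : FBar M →+* LaurentSeries Qb :=
    ((modularFunctionFieldBar (M * ℓ)).val.toRingHom.comp
      ((heckeBetaBar Qb M ℓ).toRingHom.comp (wAt D hM).toAlgHom.toRingHom)) with hΦ₂
  have key : Φ₁ = Φ₂ := by
    refine ringHom_ext_FBar M Φ₁ Φ₂ (fun c => ?_) (fun d hdne hd => ?_)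
    · show ((wAt D' hM' (heckeBetaBar Qb M ℓ (algebraMap Qb (FBar M) c)) : FBar (M * ℓ)) :
          LaurentSeries Qb) =
        ((heckeBetaBar Qb M ℓ (wAt D hM (algebraMap Qb (FBar M) c)) : FBar (M * ℓ)) :
          LaurentSeries Qb)
      rw [AlgHom.commutes, AlgEquiv.commutes, AlgEquiv.commutes, AlgHom.commutes]
    · show ((wAt D' hM' (heckeBetaBar Qb M ℓ (jdBar M d hd)) : FBar (M * ℓ)) :
          LaurentSeries Qb) =
        ((heckeBetaBar Qb M ℓ (wAt D hM (jdBar M d hd)) : FBar (M * ℓ)) : LaurentSeries Qb)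
      have hd0 : d ∣ D.Q * D.R := hM ▸ hd
      obtain ⟨d₁, e₁, d₂, f₂, h1, h2, rfl⟩ := exists_factor D hd0
      obtain ⟨p1, p2, p3, p4⟩ := factor_pos D h1 h2
      have hℓ0 : 0 < ℓ := Nat.pos_of_ne_zero (NeZero.ne ℓ)
      haveI : NeZero (e₁ * d₂) := ⟨(Nat.mul_pos p2 p3).ne'⟩
      haveI : NeZero (d₁ * (d₂ * ℓ)) := ⟨(Nat.mul_pos p1 (Nat.mul_pos p3 hℓ0)).ne'⟩
      haveI : NeZero (e₁ * (d₂ * ℓ)) := ⟨(Nat.mul_pos p2 (Nat.mul_pos p3 hℓ0)).ne'⟩
      have h2' : (d₂ * ℓ) * f₂ = D'.R := by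
        rw [hR, ← h2]
        ring
      have h1' : d₁ * e₁ = D'.Q := by rw [hQ, h1]
      have hy : ((heckeBetaBar Qb M ℓ (jdBar M (d₁ * d₂) hd) : FBar (M * ℓ)) :
          LaurentSeries Qb) = qExpand Qb (d₁ * (d₂ * ℓ)) (jqModC Qb) := by
        rw [coe_heckeBetaBar, coe_jdBar, qExpand_qExpand]
        exact qExpand_congr (by ring) _
      rw [coe_wAt_of_coe_eq D' hM' _ d₁ e₁ (d₂ * ℓ) f₂ h1' h2' hy, coe_heckeBetaBar,
        coe_wAt_of_coe_eq D hM _ d₁ e₁ d₂ f₂ h1 h2 (coe_jdBar M _ hd), qExpand_qExpand]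
      exact qExpand_congr (by ring) _
  have := congrArg (fun Φ : FBar M →+* LaurentSeries Qb => Φ x) key
  rw [← coe_heckeBetaBar]
  exact this

/-- `w_Q` at the levels `M` and `M ℓ` is compatible with `α_ℓ`. -/
theorem bn_wAt_heckeAlphaBar (D D' : ALData) {M ℓ : ℕ} [NeZero M] [NeZero ℓ]
    (hM : M = D.Q * D.R) (hM' : M * ℓ = D'.Q * D'.R) (hQ : D'.Q = D.Q) (hR : D'.R = D.R * ℓ)
    (x : FBar M) :
    wAt D' hM' (heckeAlphaBar Qb M ℓ x) = heckeAlphaBar Qb M ℓ (wAt D hM x) := by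
  apply Subtype.ext
  rw [coe_wAt_heckeAlphaBar D D' hM hM' hQ hR, coe_heckeAlphaBar]

/-- `w_Q` at the levels `M` and `M ℓ` is compatible with `β_ℓ`. -/
theorem bn_wAt_heckeBetaBar (D D' : ALData) {M ℓ : ℕ} [NeZero M] [NeZero ℓ]
    (hM : M = D.Q * D.R) (hM' : M * ℓ = D'.Q * D'.R) (hQ : D'.Q = D.Q) (hR : D'.R = D.R * ℓ)
    (x : FBar M) :
    wAt D' hM' (heckeBetaBar Qb M ℓ x) = heckeBetaBar Qb M ℓ (wAt D hM x) := by
  apply Subtype.ext
  rw [bn_coe_wAt_heckeBetaBar D D' hM hM' hQ hR, coe_heckeBetaBar]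

/-- **`T_ℓ` commutes with `w_Q` on functions** (`ℓ ∤ Q R` prime). -/
theorem bn_heckeFun_atkinLehner (D : ALData) [NeZero (D.Q * D.R)] (ℓ : ℕ) [NeZero ℓ]
    (hℓ : ℓ.Prime) (hℓN : ¬ ℓ ∣ D.Q * D.R) (x : FBar (D.Q * D.R)) :
    heckeFun Qb (D.Q * D.R) ℓ (atkinLehner D x) =
      atkinLehner D (heckeFun Qb (D.Q * D.R) ℓ x) := by
  have hcop : Nat.Coprime D.Q (D.R * ℓ) := by
    have h1 : Nat.Coprime D.Q D.R :=
      Nat.isCoprime_iff_coprime.mp ⟨D.a, -D.b, by have := D.hdet; linear_combination this⟩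
    have h2 : Nat.Coprime D.Q ℓ :=
      ((Nat.Prime.coprime_iff_not_dvd hℓ).mpr fun h => hℓN (h.trans (Dvd.intro _ rfl))).symm
    exact Nat.Coprime.mul_right h1 h2
  obtain ⟨D', hQ, hR⟩ := ALData.exists_of_coprime D.hQ
    (Nat.mul_pos D.hR (Nat.pos_of_ne_zero (NeZero.ne ℓ))) hcop
  have hM' : D.Q * D.R * ℓ = D'.Q * D'.R := by rw [hQ, hR, mul_assoc]
  have hα := bn_wAt_heckeAlphaBar D D' (rfl : D.Q * D.R = D.Q * D.R) hM' hQ hR
  have hβ := bn_wAt_heckeBetaBar D D' (rfl : D.Q * D.R = D.Q * D.R) hM' hQ hR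
  rw [heckeFun_apply, heckeFun_apply]
  show normAlong (heckeAlphaBar Qb (D.Q * D.R) ℓ) (heckeBetaBar Qb (D.Q * D.R) ℓ (atkinLehner D x))
    = atkinLehner D (normAlong (heckeAlphaBar Qb (D.Q * D.R) ℓ)
        (heckeBetaBar Qb (D.Q * D.R) ℓ x))
  rw [← wAt_rfl D x, ← hβ x, bn_normAlong_equiv_equiv (heckeAlphaBar Qb (D.Q * D.R) ℓ)
    (wAt D (rfl : D.Q * D.R = D.Q * D.R)) (wAt D' hM') hα, wAt_rfl]

end Compat

end Fermat.Agent.R38Ret
end
end MergeWrap_R38_Ret_BridgeNAL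

section MergeWrap_R38_Ret_BridgeN -- from R38/Ret/BridgeN.lean

set_option autoImplicit false
set_option linter.unusedSectionVars false
set_option linter.style.haveILetI false
set_option synthInstance.maxHeartbeats 400000

noncomputable section

namespace Fermat.Agent.R38Ret

open ModularCurve AlgebraicCurve Fermat.Agent.F3 Fermat.Agent.F3G Fermat.Agent.F3I2
  Fermat.Agent.GaussInt Fermat.Agent.AtkinLehner Fermat.Agent.BadRed Fermat.Agent.EKp
  Fermat.Agent.R38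

local notation "Qb" => AlgebraicClosure ℚ

section Wire

variable (D : ALData) [NeZero D.Q] [NeZero D.R] [NeZero (D.Q * D.R)]
  (A : ValuationSubring Qb) (hq : D.Q.Prime) (hA : A.LiesOverPrime D.Q) (hqR : ¬ D.Q ∣ D.R)
  [Fact D.Q.Prime] [CharP (IsLocalRing.ResidueField A) D.Q]
  [PerfectRing (IsLocalRing.ResidueField A) D.Q]

/-- **the abstract form**: a function `g'` with a normalised reduction `r` for `v_∞` whose divisor
is divisible by `p`, which is not a `p`-th power, and which satisfies the Hecke relations, is a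
bridge input. -/
theorem bn_bridgeInput_of_red (S : Finset ℕ) (a : ℕ → ℤ) (g' : FBar (D.Q * D.R))
    (r : modularFunctionFieldFullC (IsLocalRing.ResidueField A) D.R)
    (hmem : g' ∈ (kpS D A hq hA hqR).Ov) (hred : (kpS D A hq hA hqR).red g' = r) (hr : r ≠ 0)
    (hdiv : ∀ Q : Place (IsLocalRing.ResidueField A)
      (modularFunctionFieldFullC (IsLocalRing.ResidueField A) D.R), (D.Q : ℤ) ∣ Q.ord r)
    (hpow : ∀ h, r ≠ h ^ D.Q)
    (hT : ∀ ℓ : Nat.Primes, (ℓ : ℕ) ∉ S →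
      haveI : NeZero (ℓ : ℕ) := ⟨ℓ.2.ne_zero⟩
      ∃ (c : Qb) (φ : FBar (D.Q * D.R)), c ≠ 0 ∧ φ ≠ 0 ∧
        heckeFun Qb (D.Q * D.R) (ℓ : ℕ) g' =
          algebraMap Qb (FBar (D.Q * D.R)) c * g' ^ (a ℓ) * φ ^ D.Q) :
    BridgeInput D S A a := by
  have hG := isGaussSetup_gaussSetupBad D hq hqR A hA
  refine ⟨g', r, (hG.mem_iff g').mp hmem, ?_, hr, hdiv, ?_, hT⟩
  · rw [← hred]
    exact hG.coe_red g' hmem
  · rintro ⟨s, hs⟩
    exact hpow s hs.symm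

/-- the Hecke relations for `g / c₀`, `(E, g)` a Kummer generator of an eigen-class. -/
theorem bn_hecke_div (S : Finset ℕ) (hS : ∀ ℓ : ℕ, ℓ.Prime → ℓ ∣ D.Q * D.R → ℓ ∈ S)
    (a : ℕ → ℤ) (y : JZero (D.Q * D.R))
    (E : Divisor.degZero (K := Qb) (F := FBar (D.Q * D.R))) (g : FBar (D.Q * D.R))
    (hnew : spIsNewEigen D S a y) (hkum : spIsKumGen D.Q y E g) (c₀ : Qb) (hc₀ : c₀ ≠ 0)
    (ℓ : Nat.Primes) (hℓS : (ℓ : ℕ) ∉ S) :
    haveI : NeZero (ℓ : ℕ) := ⟨ℓ.2.ne_zero⟩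
    ∃ (c : Qb) (φ : FBar (D.Q * D.R)), c ≠ 0 ∧ φ ≠ 0 ∧
      heckeFun Qb (D.Q * D.R) (ℓ : ℕ) (g / algebraMap Qb (FBar (D.Q * D.R)) c₀) =
        algebraMap Qb (FBar (D.Q * D.R)) c * (g / algebraMap Qb (FBar (D.Q * D.R)) c₀) ^ (a ℓ) *
          φ ^ D.Q := by
  haveI : NeZero (ℓ : ℕ) := ⟨ℓ.2.ne_zero⟩
  have hℓN : ¬ (ℓ : ℕ) ∣ D.Q * D.R := fun h => hℓS (hS ℓ ℓ.2 h)
  have hT : heckeOperatorBar (D.Q * D.R) ⟨(ℓ : ℕ), ℓ.2⟩ (Pic0.mk E) = a ℓ • Pic0.mk E := by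
    rw [hkum.2]
    exact hnew.2.2.2 ℓ hℓS hℓN
  exact exists_heckeFun_div_const_eq (ℓ : ℕ) ℓ.2 D.Q (a ℓ) g E hkum.1 hT c₀ hc₀

/-- the Hecke relations for `w_p g / c₀`. -/
theorem bn_hecke_al_div (S : Finset ℕ) (hS : ∀ ℓ : ℕ, ℓ.Prime → ℓ ∣ D.Q * D.R → ℓ ∈ S)
    (a : ℕ → ℤ) (y : JZero (D.Q * D.R))
    (E : Divisor.degZero (K := Qb) (F := FBar (D.Q * D.R))) (g : FBar (D.Q * D.R))
    (hnew : spIsNewEigen D S a y) (hkum : spIsKumGen D.Q y E g) (c₀ : Qb) (hc₀ : c₀ ≠ 0)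
    (ℓ : Nat.Primes) (hℓS : (ℓ : ℕ) ∉ S) :
    haveI : NeZero (ℓ : ℕ) := ⟨ℓ.2.ne_zero⟩
    ∃ (c : Qb) (φ : FBar (D.Q * D.R)), c ≠ 0 ∧ φ ≠ 0 ∧
      heckeFun Qb (D.Q * D.R) (ℓ : ℕ) (atkinLehner D g / algebraMap Qb (FBar (D.Q * D.R)) c₀) =
        algebraMap Qb (FBar (D.Q * D.R)) c *
          (atkinLehner D g / algebraMap Qb (FBar (D.Q * D.R)) c₀) ^ (a ℓ) * φ ^ D.Q := by
  haveI : NeZero (ℓ : ℕ) := ⟨ℓ.2.ne_zero⟩
  have hℓN : ¬ (ℓ : ℕ) ∣ D.Q * D.R := fun h => hℓS (hS ℓ ℓ.2 h)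
  obtain ⟨c, φ, hc, hφ, h⟩ := bn_hecke_div D S hS a y E g hnew hkum c₀ hc₀ ℓ hℓS
  refine ⟨c, atkinLehner D φ, hc, (map_ne_zero _).mpr hφ, ?_⟩
  have e : atkinLehner D g / algebraMap Qb (FBar (D.Q * D.R)) c₀ =
      atkinLehner D (g / algebraMap Qb (FBar (D.Q * D.R)) c₀) := by
    rw [map_div₀, AlgEquiv.commutes]
  rw [e, bn_heckeFun_atkinLehner D (ℓ : ℕ) ℓ.2 hℓN, h, map_mul, map_mul, AlgEquiv.commutes,
    map_zpow₀, map_pow]

/-- **R-6a**: the spine hypotheses give the input of the bridge. -/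
theorem bridgeInput_of_spine (S : Finset ℕ) (hS : ∀ ℓ : ℕ, ℓ.Prime → ℓ ∣ D.Q * D.R → ℓ ∈ S)
    (a : ℕ → ℤ) (y : JZero (D.Q * D.R))
    (E : Divisor.degZero (K := Qb) (F := FBar (D.Q * D.R))) (g : FBar (D.Q * D.R))
    (hnew : spIsNewEigen D S a y) (hkum : spIsKumGen D.Q y E g)
    (hdz : spDivZero D A hq hA hqR g) (hpsi : spPsiNe D A hq hA hqR g) :
    BridgeInput D S A a := by
  rcases hpsi with ⟨r, hr, hpow⟩ | ⟨r, hr, hpow⟩
  · have hd := hdz r (Or.inl hr)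
    obtain ⟨c₀, hc₀, hmem, hred, hr0⟩ := hr
    exact bn_bridgeInput_of_red D A hq hA hqR S a _ r hmem hred hr0 hd hpow
      (fun ℓ hℓS => bn_hecke_div D S hS a y E g hnew hkum c₀ hc₀ ℓ hℓS)
  · have hd := hdz r (Or.inr hr)
    obtain ⟨c₀, hc₀, hmem, hred, hr0⟩ := hr
    exact bn_bridgeInput_of_red D A hq hA hqR S a _ r hmem hred hr0 hd hpow
      (fun ℓ hℓS => bn_hecke_al_div D S hS a y E g hnew hkum c₀ hc₀ ℓ hℓS)

end Wire

end Fermat.Agent.R38Ret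
end
end MergeWrap_R38_Ret_BridgeN

section MergeWrap_R38_Ret_BridgeNJ -- from R38/Ret/BridgeNJ.lean

set_option autoImplicit false
set_option linter.unusedSectionVars false
set_option linter.unusedVariables false
set_option linter.style.haveILetI false
set_option synthInstance.maxHeartbeats 400000

noncomputable section

namespace Fermat.Agent.R38Ret

/-- **J-R6a**: the level-`N` side of the bridge. -/
theorem spJR6a_holds : Fermat.Agent.R38.SpJR6a := by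
  intro D _ _ _ A hq hA hqR _ _ _ _ S a _ hS y hnew E g hkum hdz hpsi
  exact bridgeInput_of_spine D A hq hA hqR S hS a y E g hnew hkum hdz hpsi

end Fermat.Agent.R38Ret
end
end MergeWrap_R38_Ret_BridgeNJ
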